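import Mathlib.Algebra.Polynomial.RingDivision
import Mathlib.RingTheory.Valuation.Basic
import Mathlib.RingTheory.RootsOfUnity.PrimitiveRoots
import Mathlib.RingTheory.Polynomial.Cyclotomic.Basic
import Mathlib.RingTheory.Polynomial.Cyclotomic.Eval
import Mathlib.Tactic.LinearCombination

/-!
# Newton polygon bound and comparison with `ζ_p - 1`
-/

set_option autoImplicit false

namespace Fermat.Agent.S13

open Polynomial

variable {F : Type*} [Field F] {Γ : Type*} [LinearOrderedCommGroupWithZero Γ] (v : Valuation F Γ)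

/-- The product of the non-integral roots of an integral polynomial is bounded by the inverse of
its leading coefficient. -/
theorem val_leadingCoeff_mul_prod_le (S : Finset F) :
    ∀ f : F[X], (∀ i, v (f.coeff i) ≤ 1) → (∀ r ∈ S, f.IsRoot r) → (∀ r ∈ S, 1 < v r) →
      v f.leadingCoeff * ∏ r ∈ S, v r ≤ 1 := by
  classical
  induction S using Finset.induction with
  | empty => intro f hf _ _; rw [Finset.prod_empty, mul_one]; exact hf f.natDegree
  | @insert r S hrS ih =>
    intro f hf hroot hbig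
    have hr : 1 < v r := hbig r (Finset.mem_insert_self r S)
    have hr0 : 0 < v r := zero_lt_one.trans hr
    obtain ⟨g, rfl⟩ := dvd_iff_isRoot.2 (hroot r (Finset.mem_insert_self r S))
    have hg : ∀ i, v (r * g.coeff i) ≤ 1 := by
      intro i
      induction i with
      | zero =>
        have := hf 0
        rwa [mul_coeff_zero, coeff_sub, coeff_X_zero, coeff_C_zero, zero_sub, neg_mul,
          v.map_neg] at this
      | succ i hi =>
        have h := hf (i + 1)
        rw [sub_mul, coeff_sub, coeff_X_mul, coeff_C_mul] at h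
        have hgi : v (g.coeff i) ≤ 1 := by
          rw [map_mul] at hi
          exact (le_mul_of_one_le_left zero_le hr.le).trans hi
        rw [show r * g.coeff (i + 1) = g.coeff i - (g.coeff i - r * g.coeff (i + 1)) by ring]
        exact v.map_sub_le hgi h
    have hlead : ((X - C r) * g).leadingCoeff = g.leadingCoeff := by
      rw [leadingCoeff_mul, (monic_X_sub_C r).leadingCoeff, one_mul]
    have := ih (C r * g) (fun i => by rw [coeff_C_mul]; exact hg i) (fun s hs => by
      have h := hroot s (Finset.mem_insert_of_mem hs)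
      rw [IsRoot, eval_mul, eval_sub, eval_X, eval_C, mul_eq_zero, sub_eq_zero] at h
      rcases h with h | h
      · exact absurd (h ▸ hs) hrS
      · rw [IsRoot, eval_mul, h, mul_zero])
      (fun s hs => hbig s (Finset.mem_insert_of_mem hs))
    rw [leadingCoeff_mul, leadingCoeff_C, map_mul] at this
    rw [hlead, Finset.prod_insert hrS, ← mul_assoc, mul_comm (v g.leadingCoeff)]
    exact this

variable {p : ℕ} {ζ : F}

theorem val_zeta_eq_one (hp : p ≠ 0) (hζ : IsPrimitiveRoot ζ p) : v ζ = 1 := by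
  have h : v ζ ^ p = 1 := by rw [← map_pow, hζ.pow_eq_one, map_one]
  exact (pow_eq_one_iff_of_nonneg zero_le hp).1 h

theorem val_pow_sub_one_le (hz : v ζ ≤ 1) (i : ℕ) : v (ζ ^ i - 1) ≤ v (ζ - 1) := by
  induction i with
  | zero => simp
  | succ i ih =>
    rw [show ζ ^ (i + 1) - 1 = ζ * (ζ ^ i - 1) + (ζ - 1) by ring]
    refine v.map_add_le ?_ le_rfl
    rw [map_mul]
    exact (mul_le_of_le_one_left' hz).trans ih

/-- `v(ζ - 1) ^ (p - 1) = v p`. -/
theorem val_zeta_sub_one_pow (hp : p.Prime) (hζ : IsPrimitiveRoot ζ p) :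
    v (ζ - 1) ^ (p - 1) = v (p : F) := by
  have := Fact.mk hp
  have hz := (val_zeta_eq_one v hp.ne_zero hζ).le
  have hprod : ((p : ℕ) : F) = ∏ μ ∈ primitiveRoots p F, (1 - μ) := by
    rw [← eval_one_cyclotomic_prime (R := F) (p := p), cyclotomic_eq_prod_X_sub_primitiveRoots hζ,
      eval_prod]
    simp
  rw [hprod, map_prod, Finset.prod_eq_pow_card (b := v (ζ - 1)), hζ.card_primitiveRoots,
    Nat.totient_prime hp]
  intro μ hμ
  rw [mem_primitiveRoots hp.pos] at hμ
  rw [show 1 - μ = -(μ - 1) by ring, v.map_neg]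
  obtain ⟨i, -, rfl⟩ := hζ.eq_pow_of_pow_eq_one hμ.pow_eq_one
  refine le_antisymm (val_pow_sub_one_le v hz i) ?_
  obtain ⟨j, -, hj⟩ := hμ.eq_pow_of_pow_eq_one hζ.pow_eq_one
  conv_lhs => rw [← hj]
  exact val_pow_sub_one_le v (by rw [map_pow]; exact pow_le_one' hz i) j

/-- An inertia element acting on a uniformising element `z` of depth `1/(p-1)` as `k` and on `ζ`
as `c` has `k ≡ c`. -/
theorem val_natCast_sub_lt_one (hp : p.Prime) (hζ : IsPrimitiveRoot ζ p) (hvp : v (p : F) < 1)
    (hp0 : (p : F) ≠ 0) {z : F} (hz : v z ^ (p - 1) = v (p : F))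
    (σ : F →+* F) (hσ : ∀ w, v w ≤ 1 → v (σ w - w) < 1) {k c : ℕ}
    (hk : v (σ z - k * z) < v z) (hc : σ ζ = ζ ^ c) :
    v ((k : F) - c) < 1 := by
  have hpm : p - 1 ≠ 0 := by have := hp.two_le; omega
  have hv0 : v (p : F) ≠ 0 := v.ne_zero_iff.2 hp0
  have hζ1 := val_zeta_sub_one_pow v hp hζ
  have hpow := hζ1.trans hz.symm
  have hzz : v (ζ - 1) = v z := (pow_left_inj₀ zero_le zero_le hpm).1 hpow
  have hz0 : z ≠ 0 := v.ne_zero_iff.1 fun h => hv0 (by rw [← hz, h, zero_pow hpm])
  have hz1 : ζ - 1 ≠ 0 := v.ne_zero_iff.1 fun h => hv0 (by rw [← hζ1, h, zero_pow hpm])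
  have hsmall : v (ζ - 1) < 1 := by
    by_contra h
    rw [not_lt] at h
    exact absurd (hζ1 ▸ one_le_pow₀ h) (not_le.2 hvp)
  set u := z / (ζ - 1) with hu
  have hu1 : v u = 1 := by
    rw [hu, map_div₀, hzz, div_self]
    exact v.ne_zero_iff.2 hz0
  have h1 : v (σ u - u) < 1 := hσ u hu1.le
  have hA : v (σ z / z - k) < 1 := by
    rw [show σ z / z - k = (σ z - k * z) / z by field_simp, map_div₀,
      div_lt_one₀ (zero_lt_iff.2 (v.ne_zero_iff.2 hz0))]
    exact hk
  have hB : v ((ζ ^ c - 1) / (ζ - 1) - c) < 1 := by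
    rw [← geom_sum_eq (sub_ne_zero.1 hz1) c,
      show (∑ i ∈ Finset.range c, ζ ^ i) - (c : F) = ∑ i ∈ Finset.range c, (ζ ^ i - 1) by simp]
    exact v.map_sum_lt one_ne_zero fun i _ =>
      lt_of_le_of_lt (val_pow_sub_one_le v (val_zeta_eq_one v hp.ne_zero hζ).le i) hsmall
  have hσu : σ u = σ z / (ζ ^ c - 1) := by
    rw [hu, map_div₀, map_sub, map_one, hc]
  have hσu1 : v (σ u) = 1 := by
    rw [show σ u = u + (σ u - u) by ring, v.map_add_eq_of_lt_left (by rw [hu1]; exact h1), hu1]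
  have hc0 : ζ ^ c - 1 ≠ 0 := fun h => by rw [hσu, h, div_zero, map_zero] at hσu1; simp at hσu1
  have key : σ z / z - (ζ ^ c - 1) / (ζ - 1) = (σ u - u) * ((ζ ^ c - 1) / z) := by
    rw [hσu, hu]
    field_simp
  have h2 : v ((ζ ^ c - 1) / z) ≤ 1 := by
    rw [map_div₀, div_le_one₀ (zero_lt_iff.2 (v.ne_zero_iff.2 hz0)), ← hzz]
    exact val_pow_sub_one_le v (val_zeta_eq_one v hp.ne_zero hζ).le c
  have h3 : v (σ z / z - (ζ ^ c - 1) / (ζ - 1)) < 1 := by
    rw [key, map_mul]
    exact lt_of_le_of_lt (mul_le_of_le_one_right' h2) h1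
  rw [show (k : F) - c = -(σ z / z - k) + (σ z / z - (ζ ^ c - 1) / (ζ - 1)) +
    ((ζ ^ c - 1) / (ζ - 1) - c) by ring]
  exact v.map_add_lt (v.map_add_lt (by rwa [v.map_neg]) h3) hB

end Fermat.Agent.S13
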