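import Fermat.Agent.S13.Frey
import Fermat.Agent.Galois.Unramified
import Fermat.Agent.Galois.Cyclotomic
import Fermat.Agent.ECTorsion.Galois
import Fermat.Agent.WeilPairing.Det
import Fermat.Prelude.Def_FLTPrelim_CofixedLine
import Mathlib.LinearAlgebra.Determinant

/-!
# Reducible Frey representations have a cofixed line
-/

set_option autoImplicit false

noncomputable section

namespace Fermat.Agent.S13

open WeierstrassCurve WeierstrassCurve.Affine WeierstrassCurve.Affine.Point Fermat.Agent.Galois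
open scoped WeierstrassCurve.Affine Pointwise

section LinAlg

variable {k V : Type*} [Field k] [AddCommGroup V] [Module k V] [FiniteDimensional k V]
  {N : Submodule k V}

theorem line_eq_smul (h2 : Module.finrank k V = 2) (hN : N ≠ ⊤) {P₀ : V} (hP₀ : P₀ ∈ N)
    (h0 : P₀ ≠ 0) {x : V} (hx : x ∈ N) : ∃ c : k, c • P₀ = x := by
  have hlt : Module.finrank k N < 2 := h2 ▸ Submodule.finrank_lt hN
  have hle : Submodule.span k {P₀} ≤ N := (Submodule.span_singleton_le_iff_mem _ _).2 hP₀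
  have heq : Submodule.span k {P₀} = N :=
    Submodule.eq_of_le_of_finrank_le hle (by rw [finrank_span_singleton h0]; omega)
  rw [← heq, Submodule.mem_span_singleton] at hx
  exact hx

omit [FiniteDimensional k V] in
/-- An automorphism of a plane whose determinant equals its eigenvalue on a stable line fixes the
quotient by that line. -/
theorem sub_mem_of_det_eq (h2 : Module.finrank k V = 2) (hN : N ≠ ⊤) {P₀ : V} (hP₀ : P₀ ∈ N)
    (h0 : P₀ ≠ 0) (f : V →ₗ[k] V) {c : k} (hc : c ≠ 0) (hf : f P₀ = c • P₀)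
    (hdet : LinearMap.det f = c) (x : V) : f x - x ∈ N := by
  obtain ⟨Q, hQ⟩ : ∃ Q, Q ∉ N := by
    by_contra h
    push Not at h
    exact hN (Submodule.eq_top_iff'.2 h)
  have hli : LinearIndependent k ![P₀, Q] := (LinearIndependent.pair_iff' h0).2 fun a ha =>
    hQ (ha ▸ N.smul_mem a hP₀)
  let b : Module.Basis (Fin 2) k V :=
    basisOfLinearIndependentOfCardEqFinrank hli (by rw [h2, Fintype.card_fin])
  have hb : (b : Fin 2 → V) = ![P₀, Q] := coe_basisOfLinearIndependentOfCardEqFinrank _ _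
  have hb0 : b 0 = P₀ := by rw [hb]; rfl
  have hb1 : b 1 = Q := by rw [hb]; rfl
  have hd : b.repr (f Q) 1 = 1 := by
    rw [← LinearMap.det_toMatrix b, Matrix.det_fin_two] at hdet
    simp only [LinearMap.toMatrix_apply, hb0, hb1, hf, map_smul] at hdet
    rw [← hb0, Module.Basis.repr_self] at hdet
    simp only [Finsupp.smul_apply, Finsupp.single_eq_same, smul_eq_mul, mul_one,
      Finsupp.single_eq_of_ne (show (1 : Fin 2) ≠ 0 by decide), mul_zero, sub_zero] at hdet
    exact mul_left_cancel₀ hc (hdet.trans (mul_one c).symm)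
  have hfQ : f Q - Q ∈ N := by
    have := b.sum_repr (f Q)
    rw [Fin.sum_univ_two, hd, one_smul, hb0, hb1] at this
    rw [← this, add_sub_cancel_right]
    exact N.smul_mem _ hP₀
  have hx := b.sum_repr x
  rw [Fin.sum_univ_two, hb0, hb1] at hx
  rw [← hx, map_add, map_smul, map_smul, hf, smul_smul,
    show (b.repr x 0 * c) • P₀ + b.repr x 1 • f Q - (b.repr x 0 • P₀ + b.repr x 1 • Q) =
      ((b.repr x 0 * c) • P₀ - b.repr x 0 • P₀) + b.repr x 1 • (f Q - Q) by
      rw [smul_sub]; abel]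
  exact N.add_mem (N.sub_mem (N.smul_mem _ hP₀) (N.smul_mem _ hP₀)) (N.smul_mem _ hfQ)

end LinAlg

variable (P : FreyPackage)

/-- The `p`-torsion of the Frey curve over `ℚ̄`. -/
abbrev FreyTors : Submodule ℤ (P.freyCurve⁄(AlgebraicClosure ℚ)).Point :=
  Submodule.torsionBy ℤ (P.freyCurve⁄(AlgebraicClosure ℚ)).Point P.p

/-- The group of points of a stable line, on the model `crv`. -/
theorem exists_stableGroup [Fact P.p.Prime] [Finite (FreyTors P)] (N : Submodule (ZMod P.p) (FreyTors P))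
    {P₀ : (FreyTors P)} (hP₀ : P₀ ∈ N) (h0 : P₀ ≠ 0) (hline : ∀ x ∈ N, ∃ c : ZMod P.p, c • P₀ = x)
    (χ : GalQ → ZMod P.p) (hχ : ∀ σ : GalQ, σ • P₀ = χ σ • P₀) :
    ∃ G : AddSubgroup (crv 1 (freyA₂ P) (freyA₄ P)).Point, StableGroup P G ∧
      ∀ σ : GalQ, ActsAs σ G (χ σ).val := by
  suffices H : ∀ V : WeierstrassCurve.Affine Qbar,
      (P.freyCurve⁄Qbar : WeierstrassCurve.Affine Qbar) = V →
      ∃ G : AddSubgroup V.Point, ((∀ Q ∈ G, P.p • Q = 0) ∧ (∃ Q ∈ G, Q ≠ 0) ∧
        (G : Set V.Point).Finite) ∧ ∀ σ : GalQ, ActsAs σ G (χ σ).val by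
    obtain ⟨G, ⟨h1, h2, h3⟩, h4⟩ := H _ (freyCurve_eq_crv P)
    exact ⟨G, ⟨h1, h2, h3, fun τ => ⟨_, h4 τ⟩⟩, h4⟩
  rintro V rfl
  refine ⟨N.toAddSubgroup.map (Submodule.subtype _).toAddMonoidHom, ⟨?_, ?_, ?_⟩, ?_⟩
  · rintro _ ⟨x, -, rfl⟩
    have := (Submodule.mem_torsionBy_iff _ _).1 x.2
    rw [← natCast_zsmul]
    exact this
  · exact ⟨P₀, ⟨P₀, hP₀, rfl⟩, fun h => h0 (Subtype.ext h)⟩
  · exact (Set.toFinite (N : Set (FreyTors P))).image _
  · rintro σ x y h ⟨z, hz, he⟩
    obtain ⟨c, rfl⟩ := hline z hz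
    change ((c • P₀ : (FreyTors P)) : (P.freyCurve⁄Qbar).Point) = Point.some x y h at he
    have hσ : σ • (c • P₀ : (FreyTors P)) = (χ σ).val • (c • P₀ : (FreyTors P)) := by
      rw [← Nat.cast_smul_eq_nsmul (ZMod P.p), ZMod.natCast_zmod_val,
        ← galoisRep_apply σ, map_smul, galoisRep_apply, hχ σ, smul_comm]
    refine ⟨((P.freyCurve).toAffine.baseChange_nonsingular σ.toAlgHom.injective x y).mpr h, ?_⟩
    have := congrArg Subtype.val hσ
    rw [AddSubmonoidClass.coe_nsmul] at this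
    change σ • ((c • P₀ : (FreyTors P)) : (P.freyCurve⁄Qbar).Point) = _ at this
    rw [he, Point.algEquiv_smul_def, Point.map_some] at this
    exact this

/-- If the mod `p` representation of the Frey curve has a stable line, it is cofixed. -/
theorem cofixed_of_stable (N : Submodule (ZMod P.p) (FreyTors P)) (hN : IsGaloisStable ℚ N) (hbot : N ≠ ⊥)
    (htop : N ≠ ⊤) (σ : GalQ) (x : (FreyTors P)) : σ • x - x ∈ N := by
  have : Fact P.p.Prime := ⟨P.pp⟩
  have : NeZero P.p := ⟨P.pp.ne_zero⟩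
  have hp5 := P.hp5
  have hΔ := ECTorsion.freyCurve_Δ_ne_zero P
  have := ECTorsion.finite_torsionBy_qbar P.freyCurve hΔ P.pp.ne_zero
  have : FiniteDimensional (ZMod P.p) (FreyTors P) := Module.Finite.of_finite
  have h2 : Module.finrank (ZMod P.p) (FreyTors P) = 2 := ECTorsion.finrank_torsionBy_qbar P.freyCurve hΔ P.p
  obtain ⟨P₀, hP₀, h0⟩ := (Submodule.ne_bot_iff _).1 hbot
  have hline : ∀ y ∈ N, ∃ c : ZMod P.p, c • P₀ = y := fun y hy => line_eq_smul h2 htop hP₀ h0 hy
  choose χf hχf using fun τ : GalQ => hline _ (hN τ P₀ hP₀)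
  have huniq : ∀ {a b : ZMod P.p}, a • P₀ = b • P₀ → a = b := fun h => smul_left_injective _ h0 h
  let χ₀ : GalQ →* ZMod P.p :=
    { toFun := χf
      map_one' := huniq (by rw [hχf, one_smul, one_smul])
      map_mul' := fun a b => huniq (by
        rw [hχf, mul_smul (α := GalQ), ← hχf b, ← galoisRep_apply a, map_smul, galoisRep_apply,
          ← hχf a, smul_smul, mul_comm]) }
  let χ : GalQ →* (ZMod P.p)ˣ := χ₀.toHomUnits
  let ω : GalQ →* (ZMod P.p)ˣ :=
    galoisRepDet (S := ℚ) (K := AlgebraicClosure ℚ) P.freyCurve P.p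
  have hχ : ∀ τ : GalQ, τ • P₀ = (χ τ : ZMod P.p) • P₀ := fun τ => (hχf τ).symm
  have hω : ∀ τ : GalQ, ω τ = modularCyclotomicCharacter (AlgebraicClosure ℚ)
      P.card_rootsOfUnity_algebraicClosure (τ : Qbar ≃+* Qbar) :=
    WeilPairing.det_freyGaloisRep P
  obtain ⟨G, hG, hact⟩ := exists_stableGroup P N hP₀ h0 hline (fun τ => (χ τ : ZMod P.p)) hχ
  obtain ⟨L, hLfin, hL⟩ := ECTorsion.exists_finite_level ℚ (W := P.freyCurve)
    (K := AlgebraicClosure ℚ) ((map_ne_zero_iff _ (algebraMap ℚ Qbar).injective).2 hΔ) (n := P.p)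
    (Nat.cast_ne_zero.2 P.pp.ne_zero)
  have hker : L.fixingSubgroup ≤ χ.ker ∧ L.fixingSubgroup ≤ ω.ker := by
    refine ⟨fun τ hτ => ?_, fun τ hτ => ?_⟩ <;> rw [IntermediateField.mem_fixingSubgroup_iff] at hτ
    · refine MonoidHom.mem_ker.2 (Units.ext (huniq ?_))
      rw [← hχ, hL τ hτ, Units.val_one, one_smul]
    · refine MonoidHom.mem_ker.2 ?_
      show LinearEquiv.det (galoisRep (S := ℚ) P.freyCurve P.p τ) = 1
      rw [show galoisRep (S := ℚ) (K := AlgebraicClosure ℚ) P.freyCurve P.p τ = 1 from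
        LinearEquiv.ext fun y => hL τ hτ y, map_one]
  have hnat : ∀ τ : GalQ, (((χ τ : ZMod P.p)).val : ZMod P.p) = (χ τ : ZMod P.p) := fun τ =>
    ZMod.natCast_zmod_val _
  let Ker : ValuationSubring Qbar → Prop := fun A =>
    ∃ (a b : Qbar) (h : (crv 1 (freyA₂ P) (freyA₄ P)).Nonsingular a b),
      Point.some a b h ∈ G ∧ 1 < A.valuation a
  have hnoKer : ∀ {q : ℕ}, q.Prime → q ≠ P.p → ∀ {A : ValuationSubring Qbar},
      A.LiesOverPrime q → ¬ Ker A := by
    intro q hq hqp A hA hk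
    by_cases hq2 : q = 2
    · subst hq2
      obtain ⟨a, b, h, hP, hlt⟩ := hk
      exact absurd (no_kernel_at_two (by omega) G hG.torsion P.pp hG.finite hA
        (intCrv_two hA).1 a b h hP) (not_le.2 hlt)
    · exact hqp (kernel_cyclotomic P.pp (by omega) G hG.torsion hG.finite hA hq hq2
        (intCrv_odd P hA hq hq2) hG.stable hk).1
  have hfixed : ∀ {q : ℕ}, q.Prime → ∀ {A : ValuationSubring Qbar}, A.LiesOverPrime q → ¬ Ker A →
      ∀ τ ∈ A.inertiaSubgroupIn ℚ, χ τ = 1 := by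
    intro q hq A hA hk τ hτ
    have hno : ∀ (a b : Qbar) (h : (crv 1 (freyA₂ P) (freyA₄ P)).Nonsingular a b),
        Point.some a b h ∈ G → A.valuation a ≤ 1 := fun a b h hP =>
      le_of_not_gt fun hlt => hk ⟨a, b, h, hP, hlt⟩
    refine Units.ext ?_
    rw [Units.val_one, ← hnat τ]
    by_cases hq2 : q = 2
    · subst hq2
      exact natCast_eq_one_of_no_kernel P.pp (by omega) G hG.torsion hG.nontrivial
        (intCrv_two hA).1 (Or.inr (intCrv_two hA).2) hτ (hact τ) hno
    · exact natCast_eq_one_odd hG hA hq hq2 hτ (hact τ) hno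
  by_cases hcase : ∃ A : ValuationSubring Qbar, A.LiesOverPrime P.p ∧ Ker A
  · obtain ⟨A₀, hA₀, a₀, b₀, h₀, hPk, hlt₀⟩ := hcase
    have hall : ∀ {A : ValuationSubring Qbar}, A.LiesOverPrime P.p → Ker A := by
      intro A hA
      obtain ⟨g, rfl⟩ := exists_smul_eq hA₀ hA P.pp
      obtain ⟨h', he⟩ := hact g a₀ b₀ h₀ hPk
      refine ⟨g a₀, g b₀, h', he ▸ G.nsmul_mem hPk _, ?_⟩
      rw [← not_le, ValuationSubring.valuation_le_one_iff, apply_mem_smul_iff g,
        ← ValuationSubring.valuation_le_one_iff, not_le]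
      exact hlt₀
    have hψ : χ / ω = 1 := by
      refine monoidHom_eq_one_of_forall_inertia (χ / ω) ⟨L, hLfin, fun τ hτ => ?_⟩
        fun q hq A hA τ hτ => ?_
      · rw [MonoidHom.mem_ker, MonoidHom.div_apply, MonoidHom.mem_ker.1 (hker.1 hτ),
          MonoidHom.mem_ker.1 (hker.2 hτ), div_one]
      · rw [MonoidHom.div_apply, div_eq_one]
        by_cases hqp : q = P.p
        · subst hqp
          obtain ⟨ζ, hζ⟩ : ∃ ζ : Qbar, IsPrimitiveRoot ζ P.p :=
            HasEnoughRootsOfUnity.exists_primitiveRoot Qbar P.p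
          obtain ⟨u, hu⟩ := hζ.isUnit P.pp.ne_zero
          have hc : τ ζ = ζ ^ ((ω τ : ZMod P.p)).val := by
            rw [hω τ]
            have hmem : u ∈ rootsOfUnity P.p Qbar := by
              rw [mem_rootsOfUnity]; ext; rw [Units.val_pow_eq_pow_val, hu]; exact hζ.pow_eq_one
            have := modularCyclotomicCharacter.spec Qbar P.card_rootsOfUnity_algebraicClosure
              (τ : Qbar ≃+* Qbar) hmem
            rw [hu] at this
            exact this
          have hk := (kernel_cyclotomic P.pp (by omega) G hG.torsion hG.finite hA P.pp (by omega)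
            (intCrv_odd P hA P.pp (by omega)) hG.stable (hall hA)).2 τ hτ _ _ (hact τ) ζ hζ hc
          rw [hnat, ZMod.natCast_zmod_val] at hk
          exact Units.ext hk
        · rw [hfixed hq hA (hnoKer hq hqp hA) τ hτ, hω,
            modularCyclotomicCharacter_inertia hA hq hτ
              (fun hd => hqp ((Nat.prime_dvd_prime_iff_eq hq P.pp).1 hd))]
    have heq : χ σ = ω σ := div_eq_one.1 (by rw [← MonoidHom.div_apply, hψ, MonoidHom.one_apply])
    refine sub_mem_of_det_eq h2 htop hP₀ h0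
      (galoisRep (S := ℚ) (K := AlgebraicClosure ℚ) P.freyCurve P.p σ).toLinearMap
      (c := (χ σ : ZMod P.p)) (χ σ).ne_zero (hχ σ) ?_ x
    rw [heq]
    exact (LinearEquiv.coe_det _).symm
  · exfalso
    have hχ1 : χ = 1 := by
      refine monoidHom_eq_one_of_forall_inertia χ ⟨L, hLfin, hker.1⟩ fun q hq A hA τ hτ => ?_
      refine hfixed hq hA (fun hk => ?_) τ hτ
      by_cases hqp : q = P.p
      · subst hqp; exact hcase ⟨A, hA, hk⟩
      · exact hnoKer hq hqp hA hk
    refine no_rational_point hG fun τ => ?_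
    have := hact τ
    rwa [hχ1, MonoidHom.one_apply, Units.val_one, ZMod.val_one P.p] at this

/-- A reducible mod `p` representation of the Frey curve has a cofixed line. -/
theorem hasCofixedLine_of_reducible
    (hred : ¬ GaloisRepIsIrreducible (K := AlgebraicClosure ℚ) ℚ P.freyCurve P.p) :
    HasGaloisStableCofixedLine (K := AlgebraicClosure ℚ) ℚ P.freyCurve P.p := by
  have : Fact P.p.Prime := ⟨P.pp⟩
  have hnt : Nontrivial (FreyTors P) := by
    refine Module.nontrivial_of_finrank_pos (R := ZMod P.p) ?_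
    rw [ECTorsion.finrank_torsionBy_qbar P.freyCurve (ECTorsion.freyCurve_Δ_ne_zero P) P.p]
    exact two_pos
  obtain ⟨N, hN, hbot, htop⟩ : ∃ N : Submodule (ZMod P.p) (FreyTors P),
      IsGaloisStable ℚ N ∧ N ≠ ⊥ ∧ N ≠ ⊤ := by
    by_contra h
    refine hred ⟨hnt, fun N hN => ?_⟩
    by_contra hor
    exact h ⟨N, hN, fun hb => hor (Or.inl hb), fun ht => hor (Or.inr ht)⟩
  exact ⟨N, hN, hbot, htop, cofixed_of_stable P N hN hbot htop⟩

end Fermat.Agent.S13
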