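import Fermat.Agent.S13.Reduction

/-!
# A cyclic group of prime order outside the identity component

If all nonzero multiples of a point of odd prime order `p` reduce to the node, the largest value
`X` of `v x` on them satisfies `X ^ p = (v a₄) ^ 2`: the order of the component group is a
multiple of `p`.
-/

set_option autoImplicit false

namespace Fermat.Agent.S13

open WeierstrassCurve WeierstrassCurve.Affine

variable {F : Type*} [Field F] [DecidableEq F] {Γ : Type*} [LinearOrderedCommGroupWithZero Γ]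
  (v : Valuation F Γ) {a₁ a₂ a₄ x y : F}

theorem crv_component_pow (hN : NodeCrv v a₁ a₂ a₄)
    (h : (crv a₁ a₂ a₄).Nonsingular x y) (hx : v x < 1) {p : ℕ} (hp : p.Prime) (hp2 : p ≠ 2)
    (hpP : p • Point.some x y h = 0)
    (hcomp : ∀ (k : ℕ) (x' y' : F) (h' : (crv a₁ a₂ a₄).Nonsingular x' y'),
      k • Point.some x y h = Point.some x' y' h' → v a₄ < v x' ∧ v x' ≤ v x) :
    v x ^ p = v a₄ ^ 2 := by
  have hord : ∀ k : ℕ, k • Point.some x y h = 0 → p ∣ k := by
    intro k hk
    rw [← addOrderOf_dvd_iff_nsmul_eq_zero] at hk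
    have : addOrderOf (Point.some x y h) = p := by
      have := Fact.mk hp
      exact addOrderOf_eq_prime hpP (Point.some_ne_zero h)
    rwa [this] at hk
  have h2lt : 2 < p := lt_of_le_of_ne hp.two_le (Ne.symm hp2)
  set X := v x with hX
  set M := v a₄ with hM
  have hMX : M < X := (hcomp 1 x y h (one_nsmul _)).1
  have hX0 : 0 < X := lt_of_le_of_lt zero_le hMX
  have hx0 : x ≠ 0 := v.ne_zero_iff.1 hX0.ne'
  -- claim along the multiples
  have key : ∀ k : ℕ, 1 ≤ k → M ^ 2 < X ^ k → k < p ∧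
      ∃ (x' y' : F) (h' : (crv a₁ a₂ a₄).Nonsingular x' y'),
        k • Point.some x y h = Point.some x' y' h' ∧
        ((M < X ^ k ∧ v x' = X ^ k) ∨ (X ^ k < M ∧ v x' * X ^ k = M ^ 2)) := by
    intro k
    induction k using Nat.strong_induction_on with
    | _ k ih =>
    intro hk1 hk
    rcases (show k = 1 ∨ k = 2 ∨ 3 ≤ k by omega) with rfl | rfl | hk3
    · exact ⟨hp.one_lt, x, y, h, one_nsmul _, Or.inl ⟨by rwa [pow_one], (pow_one X).symm⟩⟩
    · have h2ne : (2 : ℕ) • Point.some x y h ≠ 0 := fun h0 =>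
        absurd (Nat.le_of_dvd two_pos (hord 2 h0)) (by omega)
      obtain ⟨x₂, y₂, h₂, he, hd, -⟩ := crv_double h h2ne
      obtain ⟨hax₂, hle₂⟩ := hcomp 2 x₂ y₂ h₂ he
      have hden : v ((2 * y + a₁ * x) ^ 2) = X ^ 2 := by
        rw [crv_sq_two_mul_add h.1,
          show 4 * x ^ 3 + (a₁ ^ 2 + 4 * a₂) * x ^ 2 + 4 * a₄ * x =
            (a₁ ^ 2 + 4 * a₂) * x ^ 2 + (4 * x ^ 3 + 4 * a₄ * x) by ring,
          v.map_add_eq_of_lt_left, map_mul, map_pow, hN.2, one_mul]
        rw [map_mul v (a₁ ^ 2 + 4 * a₂), map_pow, hN.2, one_mul]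
        refine v.map_add_lt ?_ ?_ <;> simp only [map_mul, map_pow]
        · refine lt_of_le_of_lt (mul_le_of_le_one_left' (val_ofNat_le_one v 4)) ?_
          rw [pow_succ X 2]
          exact mul_lt_of_lt_one_right (pow_pos hX0 2) hx
        · rw [mul_assoc]
          refine lt_of_le_of_lt (mul_le_of_le_one_left' (val_ofNat_le_one v 4)) ?_
          rw [sq]
          exact mul_lt_mul_of_pos_right hMX hX0
      have hd' : v x₂ * X ^ 2 = v ((x ^ 2 - a₄) ^ 2) := by rw [← hden, ← map_mul, hd]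
      refine ⟨h2lt, x₂, y₂, h₂, he, ?_⟩
      rcases lt_trichotomy M (X ^ 2) with hlt | heq | hgt
      · refine Or.inl ⟨hlt, ?_⟩
        refine mul_right_cancel₀ (pow_ne_zero 2 hX0.ne') ?_
        rw [hd', map_pow, v.map_sub_eq_of_lt_left (by rw [map_pow]; exact hlt), map_pow]
        exact sq _
      · exfalso
        have h1 : v ((x ^ 2 - a₄) ^ 2) ≤ M ^ 2 := by
          rw [map_pow]
          exact pow_le_pow_left' (v.map_sub_le (by rw [map_pow]; exact heq.ge) le_rfl) 2
        rw [← hd', sq M] at h1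
        nth_rw 1 [← heq] at h1
        exact absurd (le_of_mul_le_mul_right h1 (heq ▸ pow_pos hX0 2)) (not_le.2 hax₂)
      · refine Or.inr ⟨hgt, ?_⟩
        rw [hd', map_pow, v.map_sub_eq_of_lt_right (by rw [map_pow]; exact hgt)]
    · obtain ⟨j, rfl⟩ : ∃ j, k = j + 2 := ⟨k - 2, by omega⟩
      have hmono : ∀ i, i ≤ j + 2 → M ^ 2 < X ^ i := fun i hi =>
        hk.trans_le (pow_le_pow_right_of_le_one' hx.le hi)
      obtain ⟨hjp, x', y', h', he, hv⟩ := ih (j + 1) (by omega) (by omega) (hmono _ (by omega))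
      obtain ⟨-, x₀, y₀, h₀, he₀, hv₀⟩ := ih j (by omega) (by omega) (hmono _ (by omega))
      obtain ⟨hax', hle'⟩ := hcomp _ x' y' h' he
      have hlt' : v x' < X := by
        rcases hv with ⟨-, hv⟩ | ⟨-, hv⟩
        · rw [hv]
          calc X ^ (j + 1) < X ^ 1 := pow_lt_pow_right_of_lt_one₀ hX0 hx (by omega)
            _ = X := pow_one X
        · refine lt_of_le_of_ne hle' fun heq => ?_
          rw [heq, ← pow_succ'] at hv
          exact hk.ne' hv
      have hne : x' ≠ x := fun h0 => hlt'.ne (by rw [h0])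
      have hx'0 : x' ≠ 0 := v.ne_zero_iff.1 (lt_of_le_of_lt zero_le hax').ne'
      have hd : v (x' - x) = X := v.map_sub_eq_of_lt_right hlt'
      obtain ⟨x₃, y₃, h₃, x₄, y₄, h₄, he₃, he₄, hprod⟩ := crv_add_mul_sub h' h hne hx'0 hx0
      have he3 : (j + 2) • Point.some x y h = Point.some x₃ y₃ h₃ := by
        rw [succ_nsmul, he, he₃]
      have he4 : Point.some x₄ y₄ h₄ = Point.some x₀ y₀ h₀ := by
        rw [← he₄, ← he, ← he₀, succ_nsmul, add_sub_cancel_right]
      rw [Point.some.injEq] at he4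
      obtain ⟨rfl, rfl⟩ := he4
      have hp' : v x₃ * v x₄ * X ^ 2 = v ((x' * x - a₄) ^ 2) := by
        rw [← hd, ← map_pow, ← map_mul, ← map_mul, hprod]
      refine ⟨?_, x₃, y₃, h₃, he3, ?_⟩
      · rcases lt_or_eq_of_le (show j + 2 ≤ p by omega) with hlt | heq
        · exact hlt
        · rw [heq] at he3
          rw [hpP] at he3
          exact absurd he3.symm (Point.some_ne_zero h₃)
      obtain ⟨hax₃, hle₃⟩ := hcomp _ x₃ y₃ h₃ he3
      have hM0 : M = 0 ∨ 0 < M := (eq_or_lt_of_le zero_le).imp_left Eq.symm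
      rcases hv with ⟨hA, hv⟩ | ⟨hB, hv⟩
      · -- `v x' = X ^ (j + 1)`
        have hv₀' : v x₄ = X ^ j := by
          rcases hv₀ with ⟨-, h0⟩ | ⟨h0, -⟩
          · exact h0
          · exact absurd (h0.trans hA) (not_lt.2 (pow_le_pow_right_of_le_one' hx.le (by omega)))
        rw [hv₀'] at hp'
        have hvmul : v (x' * x) = X ^ (j + 2) := by rw [map_mul, hv, ← pow_succ]
        rcases lt_trichotomy M (X ^ (j + 2)) with hlt | heq | hgt
        · refine Or.inl ⟨hlt, ?_⟩
          refine mul_right_cancel₀ (pow_ne_zero (j + 2) hX0.ne') ?_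
          rw [map_pow, v.map_sub_eq_of_lt_left (by rw [hvmul]; exact hlt), hvmul, mul_assoc,
            ← pow_add] at hp'
          rw [hp', sq]
        · exfalso
          have h1 : v ((x' * x - a₄) ^ 2) ≤ M ^ 2 := by
            rw [map_pow]
            exact pow_le_pow_left' (v.map_sub_le (by rw [hvmul]; exact heq.ge) le_rfl) 2
          rw [← hp', mul_assoc, ← pow_add, ← heq, sq] at h1
          exact absurd (le_of_mul_le_mul_right h1 (heq ▸ pow_pos hX0 _)) (not_le.2 hax₃)
        · refine Or.inr ⟨hgt, ?_⟩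
          rw [map_pow, v.map_sub_eq_of_lt_right (by rw [hvmul]; exact hgt), mul_assoc,
            ← pow_add] at hp'
          exact hp'
      · -- `v x' * X ^ (j + 1) = M ^ 2`
        have hlt2 : X ^ (j + 2) < M := lt_of_le_of_lt (pow_le_pow_right_of_le_one' hx.le (by omega)) hB
        refine Or.inr ⟨hlt2, ?_⟩
        have hMpos : 0 < M := (pow_pos hX0 _).trans hB
        have hvxj : v (x' * x) * X ^ j = M ^ 2 := by
          rw [map_mul, mul_assoc, ← hX, ← pow_succ', hv]
        rcases hv₀ with ⟨hA₀, hv₀⟩ | ⟨hB₀, hv₀⟩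
        · have hlt : v (x' * x) < M := by
            refine lt_of_mul_lt_mul_right (a := X ^ j) ?_ zero_le
            rw [hvxj, sq]
            exact mul_lt_mul_of_pos_left hA₀ hMpos
          rw [map_pow, v.map_sub_eq_of_lt_right hlt, hv₀, mul_assoc, ← pow_add] at hp'
          exact hp'
        · have hlt : M < v (x' * x) := by
            refine lt_of_mul_lt_mul_right (a := X ^ j) ?_ zero_le
            rw [hvxj, sq]
            exact mul_lt_mul_of_pos_left hB₀ hMpos
          rw [map_pow, v.map_sub_eq_of_lt_left hlt] at hp'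
          have h5 : v x₃ * X ^ (j + 2) * M ^ 2 = M ^ 2 * M ^ 2 := by
            calc v x₃ * X ^ (j + 2) * M ^ 2
                = v x₃ * X ^ (j + 2) * (v x₄ * X ^ j) := by rw [hv₀]
              _ = (v x₃ * v x₄ * X ^ 2) * (X ^ j * X ^ j) := by rw [pow_add]; ac_rfl
              _ = v (x' * x) ^ 2 * (X ^ j * X ^ j) := by rw [hp']
              _ = (v (x' * x) * X ^ j) ^ 2 := by rw [mul_pow, sq (X ^ j)]
              _ = M ^ 2 * M ^ 2 := by rw [hvxj, sq (M ^ 2)]
          exact mul_right_cancel₀ (pow_ne_zero 2 hMpos.ne') h5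
  -- the first `K` with `X ^ K ≤ M ^ 2`
  classical
  have hex : ∃ K, X ^ K ≤ M ^ 2 :=
    ⟨p, le_of_not_gt fun hgt => lt_irrefl _ (key p hp.one_lt.le hgt).1⟩
  have hKle := Nat.find_spec hex
  have hKmin : ∀ i, i < Nat.find hex → M ^ 2 < X ^ i := fun i hi =>
    not_le.1 (Nat.find_min hex hi)
  generalize Nat.find hex = K at hKle hKmin
  have hK3 : 3 ≤ K := by
    by_contra hK
    have h1 : X ^ 2 ≤ X ^ K := pow_le_pow_right_of_le_one' hx.le (by omega)
    exact absurd (h1.trans hKle) (not_le.2 (pow_lt_pow_left₀ hMX zero_le two_ne_zero))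
  obtain ⟨j, rfl⟩ : ∃ j, K = j + 2 := ⟨K - 2, by omega⟩
  obtain ⟨hjp, x', y', h', he, hv⟩ := key (j + 1) (by omega) (hKmin _ (by omega))
  obtain ⟨-, x₀, y₀, h₀, he₀, hv₀⟩ := key j (by omega) (hKmin _ (by omega))
  obtain ⟨hax', hle'⟩ := hcomp _ x' y' h' he
  have hMpos : 0 < M := by
    by_contra h0
    rw [not_lt, le_zero_iff] at h0
    rw [h0, zero_pow two_ne_zero, le_zero_iff] at hKle
    exact pow_ne_zero _ hX0.ne' hKle
  have hv' : X ^ (j + 1) < M ∧ v x' * X ^ (j + 1) = M ^ 2 := by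
    rcases hv with ⟨hA, -⟩ | hB
    · exfalso
      have : M ^ 2 < X ^ (j + 2) := by
        rw [sq, pow_succ X (j + 1)]
        exact mul_lt_mul'' hA hMX zero_le zero_le
      exact absurd hKle (not_le.2 this)
    · exact hB
  have hKeq : X ^ (j + 2) = M ^ 2 := by
    refine le_antisymm hKle ?_
    rw [← hv'.2, pow_succ' X (j + 1)]
    exact mul_le_mul' hle' le_rfl
  have hvx' : v x' = X := by
    refine mul_right_cancel₀ (pow_ne_zero (j + 1) hX0.ne') ?_
    rw [hv'.2, ← hKeq, pow_succ' X (j + 1)]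
  by_cases hne : x' = x
  · subst hne
    rcases Y_eq_of_X_eq h'.1 h.1 rfl with hy | hy
    · subst hy
      have h0 : j • Point.some x' y' h = 0 := by
        rw [succ_nsmul] at he
        exact add_eq_right.1 he
      rw [he₀] at h0
      exact absurd h0 (Point.some_ne_zero h₀)
    · have h0 : (j + 2) • Point.some x' y h = 0 := by
        rw [succ_nsmul, he]; exact Point.add_of_Y_eq rfl hy
      have h1 := Nat.le_of_dvd (by omega) (hord _ h0)
      rw [show p = j + 2 by omega]
      exact hKeq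
  · exfalso
    have hx'0 : x' ≠ 0 := v.ne_zero_iff.1 (by rw [hvx']; exact hX0.ne')
    obtain ⟨x₃, y₃, h₃, x₄, y₄, h₄, he₃, he₄, hprod⟩ := crv_add_mul_sub h' h hne hx'0 hx0
    have he3 : (j + 2) • Point.some x y h = Point.some x₃ y₃ h₃ := by
      rw [succ_nsmul, he, he₃]
    have he4 : Point.some x₄ y₄ h₄ = Point.some x₀ y₀ h₀ := by
      rw [← he₄, ← he, ← he₀, succ_nsmul, add_sub_cancel_right]
    rw [Point.some.injEq] at he4
    obtain ⟨rfl, rfl⟩ := he4
    obtain ⟨hax₃, hle₃⟩ := hcomp _ x₃ y₃ h₃ he3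
    have hd : v (x' - x) ^ 2 ≤ X ^ 2 := pow_le_pow_left' (v.map_sub_le hvx'.le le_rfl) 2
    have hnum : v ((x' * x - a₄) ^ 2) ≤ v x₃ * (v x₄ * X ^ 2) := by
      rw [← hprod, map_mul, map_mul, map_pow, mul_assoc]
      exact mul_le_mul' le_rfl (mul_le_mul' le_rfl hd)
    have hxx : v (x' * x) = X ^ 2 := by rw [map_mul, hvx', sq]
    have hx3lt : v x₃ < 1 := lt_of_le_of_lt hle₃ hx
    rcases hv₀ with ⟨hA₀, hv₀⟩ | ⟨hB₀, hv₀⟩
    · have hlt : X ^ 2 < M := by
        refine lt_of_mul_lt_mul_left (a := X ^ j) ?_ zero_le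
        rw [← pow_add, hKeq, sq]
        exact mul_lt_mul_of_pos_right hA₀ hMpos
      rw [hv₀, ← pow_add, hKeq, map_pow,
        v.map_sub_eq_of_lt_right (by rw [hxx]; exact hlt)] at hnum
      exact absurd hnum (not_le.2 (mul_lt_of_lt_one_left (pow_pos hMpos 2) hx3lt))
    · have hv₄ : v x₄ = X ^ 2 := by
        refine mul_right_cancel₀ (pow_ne_zero j hX0.ne') ?_
        rw [hv₀, ← hKeq, ← pow_add, Nat.add_comm 2 j]
      have hlt : M < X ^ 2 := by
        refine lt_of_mul_lt_mul_left (a := X ^ j) ?_ zero_le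
        rw [← pow_add, hKeq, sq]
        exact mul_lt_mul_of_pos_right hB₀ hMpos
      rw [hv₄, map_pow, v.map_sub_eq_of_lt_left (by rw [hxx]; exact hlt), hxx,
        ← sq] at hnum
      exact absurd hnum (not_le.2 (mul_lt_of_lt_one_left (pow_pos (pow_pos hX0 2) 2) hx3lt))

end Fermat.Agent.S13
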