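import Fermat.Agent.S13.Reduction
import Mathlib.Algebra.CharZero.Defs

/-!
# The parameter `z = -x/y` on the kernel of reduction

Addition is congruent to addition of parameters; consequently the multiples of a point of prime
order in the kernel all have the same valuation.
-/

set_option autoImplicit false

namespace Fermat.Agent.S13

open WeierstrassCurve WeierstrassCurve.Affine

variable {F : Type*} [Field F] {Γ : Type*} [LinearOrderedCommGroupWithZero Γ] (v : Valuation F Γ)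
  {a₁ a₂ a₄ x y x₁ y₁ x₂ y₂ x₃ : F}

/-- Coordinates of a point in the kernel of reduction. -/
theorem crv_kernel_coords (hI : IntCrv v a₁ a₂ a₄) (h : (crv a₁ a₂ a₄).Equation x y)
    (hx : 1 < v x) :
    y ≠ 0 ∧ v (x / y) < 1 ∧ v x * v (x / y) ^ 2 = 1 ∧ v y * v (x / y) ^ 3 = 1 ∧
      v (y + a₁ * x) = v y := by
  have hX : 0 < v x := zero_lt_one.trans hx
  have hrhs : v (x ^ 3 + a₂ * x ^ 2 + a₄ * x) = v x ^ 3 := by
    rw [add_assoc, v.map_add_eq_of_lt_left, map_pow]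
    rw [map_pow]
    refine v.map_add_lt ?_ ?_ <;> simp only [map_mul, map_pow]
    · exact lt_of_le_of_lt (mul_le_of_le_one_left' hI.a₂_le) (pow_lt_pow_right₀ hx (by norm_num))
    · refine lt_of_le_of_lt (mul_le_of_le_one_left' hI.a₄_le) ?_
      calc v x = v x ^ 1 := (pow_one _).symm
        _ < v x ^ 3 := pow_lt_pow_right₀ hx (by norm_num)
  have hxy : v x < v y := by
    by_contra hle
    rw [not_lt] at hle
    have h1 : v ((y + a₁ * x) * y) ≤ v x ^ 2 := by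
      rw [map_mul, sq]
      exact mul_le_mul' (v.map_add_le hle (by rw [map_mul]; exact mul_le_of_le_one_left' hI.a₁_le))
        hle
    rw [show (y + a₁ * x) * y = y ^ 2 + a₁ * x * y by ring, crv_equation h, hrhs] at h1
    exact absurd h1 (not_le.2 (pow_lt_pow_right₀ hx (by norm_num)))
  have hY : 0 < v y := hX.trans hxy
  have hya : v (y + a₁ * x) = v y := v.map_add_eq_of_lt_left
    (by rw [map_mul]; exact lt_of_le_of_lt (mul_le_of_le_one_left' hI.a₁_le) hxy)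
  have heq : v y ^ 2 = v x ^ 3 := by
    rw [← hrhs, ← crv_equation h, show y ^ 2 + a₁ * x * y = (y + a₁ * x) * y by ring,
      map_mul, hya, sq]
  refine ⟨v.ne_zero_iff.1 hY.ne', ?_, ?_, ?_, hya⟩
  · rw [map_div₀, div_lt_one₀ hY]; exact hxy
  · rw [map_div₀, div_pow, ← mul_div_assoc, ← pow_succ', ← heq,
      div_self (pow_ne_zero 2 hY.ne')]
  · rw [map_div₀, div_pow, ← mul_div_assoc, ← heq, ← pow_succ', div_self (pow_ne_zero 3 hY.ne')]

/-- The three parameters on a line sum to something small. -/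
theorem crv_line_sum (hI : IntCrv v a₁ a₂ a₄) {l ν : F} {δ : Γ} (hδ : δ < 1) (hν : ν ≠ 0)
    (hy₁ : l * x₁ + ν ≠ 0) (hy₂ : l * x₂ + ν ≠ 0) (hy₃ : l * x₃ + ν ≠ 0)
    (e1 : x₁ + x₂ + x₃ = l ^ 2 + a₁ * l - a₂)
    (e2 : x₁ * x₂ + x₁ * x₃ + x₂ * x₃ = a₄ - 2 * l * ν - a₁ * ν)
    (e3 : x₁ * x₂ * x₃ = ν ^ 2) (hl : v l ≤ v ν * δ ^ 2) (hνδ : 1 ≤ v ν * δ ^ 3) :
    v (x₁ / (l * x₁ + ν) + x₂ / (l * x₂ + ν) + x₃ / (l * x₃ + ν)) ≤ δ ^ 2 := by
  have hν0 : 0 < v ν := zero_lt_iff.2 (v.ne_zero_iff.2 hν)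
  have hL : v (-l / ν) ≤ δ ^ 2 := by
    rw [map_div₀, v.map_neg, div_le_iff₀ hν0, mul_comm]; exact hl
  have hM : v (-1 / ν) ≤ δ ^ 3 := by
    rw [map_div₀, v.map_neg, map_one, div_le_iff₀ hν0, mul_comm]; exact hνδ
  have hδ2 : δ ^ 2 < 1 := pow_lt_one₀ zero_le hδ two_ne_zero
  have hc3 : v (1 + a₂ * (-l / ν) + a₄ * (-l / ν) ^ 2) = 1 := by
    have hlt : v (a₂ * (-l / ν) + a₄ * (-l / ν) ^ 2) < 1 := by
      refine v.map_add_lt ?_ ?_ <;> simp only [map_mul, map_pow]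
      · exact gamma_mul_lt_one hI.a₂_le (lt_of_le_of_lt hL hδ2)
      · exact gamma_mul_lt_one hI.a₄_le (pow_lt_one₀ zero_le (lt_of_le_of_lt hL hδ2) two_ne_zero)
    rw [add_assoc, v.map_add_eq_of_lt_left (by rw [map_one]; exact hlt), map_one]
  have hM2 : v (-1 / ν) ≤ δ ^ 2 := hM.trans (pow_le_pow_right_of_le_one' hδ.le (by norm_num))
  have hc2 : v (a₁ * (-l / ν) + a₂ * (-1 / ν) + 2 * a₄ * (-l / ν) * (-1 / ν)) ≤ δ ^ 2 := by
    refine v.map_add_le (v.map_add_le ?_ ?_) ?_ <;> simp only [map_mul]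
    · exact (mul_le_of_le_one_left' hI.a₁_le).trans hL
    · exact (mul_le_of_le_one_left' hI.a₂_le).trans hM2
    · exact (mul_le_of_le_one_left'
        (mul_le_one' (mul_le_one' (val_ofNat_le_one v 2) hI.a₄_le)
          (hL.trans hδ2.le))).trans hM2
  have h3 : (1 + a₂ * (-l / ν) + a₄ * (-l / ν) ^ 2) * ν ^ 3 =
      (l * x₁ + ν) * (l * x₂ + ν) * (l * x₃ + ν) := by
    field_simp
    linear_combination (-(l * ν ^ 2)) * e1 + (-(l ^ 2 * ν)) * e2 + (-(l ^ 3)) * e3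
  have h2 : (a₁ * (-l / ν) + a₂ * (-1 / ν) + 2 * a₄ * (-l / ν) * (-1 / ν)) * ν ^ 3 =
      x₁ * ((l * x₂ + ν) * (l * x₃ + ν)) + x₂ * ((l * x₁ + ν) * (l * x₃ + ν)) +
        x₃ * ((l * x₁ + ν) * (l * x₂ + ν)) := by
    field_simp
    linear_combination (-(ν ^ 2)) * e1 + (-(2 * l * ν)) * e2 + (-(3 * l ^ 2)) * e3
  have hsum : (x₁ / (l * x₁ + ν) + x₂ / (l * x₂ + ν) + x₃ / (l * x₃ + ν)) *
      (1 + a₂ * (-l / ν) + a₄ * (-l / ν) ^ 2) =
      a₁ * (-l / ν) + a₂ * (-1 / ν) + 2 * a₄ * (-l / ν) * (-1 / ν) := by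
    refine mul_right_cancel₀ (pow_ne_zero 3 hν) ?_
    rw [mul_assoc, h3, h2]
    generalize l * x₁ + ν = u₁ at hy₁ ⊢
    generalize l * x₂ + ν = u₂ at hy₂ ⊢
    generalize l * x₃ + ν = u₃ at hy₃ ⊢
    field_simp
  have := congrArg v hsum
  rw [map_mul, hc3, mul_one] at this
  rw [this]; exact hc2

/-- The line through two kernel points of the same depth meets the curve in the kernel again. -/
theorem crv_line_step (hI : IntCrv v a₁ a₂ a₄) {l ν : F} {δ : Γ}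
    (hx₁ : 1 < v x₁) (he₁ : (crv a₁ a₂ a₄).Equation x₁ (l * x₁ + ν)) (hd₁ : v (x₁ / (l * x₁ + ν)) = δ)
    (hx₂ : 1 < v x₂) (he₂ : (crv a₁ a₂ a₄).Equation x₂ (l * x₂ + ν)) (hd₂ : v (x₂ / (l * x₂ + ν)) = δ)
    (he₃ : (crv a₁ a₂ a₄).Equation x₃ (-(l * x₃ + ν) - a₁ * x₃))
    (e1 : x₁ + x₂ + x₃ = l ^ 2 + a₁ * l - a₂)
    (e2 : x₁ * x₂ + x₁ * x₃ + x₂ * x₃ = a₄ - 2 * l * ν - a₁ * ν)
    (e3 : x₁ * x₂ * x₃ = ν ^ 2) (hl : v l ≤ v ν * δ ^ 2) (hνδ : 1 ≤ v ν * δ ^ 3) :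
    1 < v x₃ ∧
      v (-x₃ / (-(l * x₃ + ν) - a₁ * x₃) - (-x₁ / (l * x₁ + ν) + -x₂ / (l * x₂ + ν))) ≤ δ ^ 2 := by
  obtain ⟨hy₁, hδ, hX₁, -, -⟩ := crv_kernel_coords v hI he₁ hx₁
  obtain ⟨hy₂, -, hX₂, -, -⟩ := crv_kernel_coords v hI he₂ hx₂
  rw [hd₁] at hδ hX₁
  rw [hd₂] at hX₂
  have hδ0 : δ ≠ 0 := fun h => by rw [h] at hX₁; simp at hX₁
  have hν : ν ≠ 0 := fun h => by rw [h] at hνδ; simp at hνδ
  have hX₃ : 1 < v x₃ := by
    by_contra hle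
    rw [not_lt] at hle
    have h' : v x₁ * v x₂ * v x₃ * δ ^ 4 = v ν ^ 2 * δ ^ 4 := by
      rw [← map_pow v ν, ← e3, map_mul, map_mul]
    have h4 : v x₁ * v x₂ * δ ^ 4 = 1 := by
      rw [show v x₁ * v x₂ * δ ^ 4 = (v x₁ * δ ^ 2) * (v x₂ * δ ^ 2) by
        rw [mul_mul_mul_comm, ← pow_add], hX₁, hX₂, one_mul]
    rw [show v x₁ * v x₂ * v x₃ * δ ^ 4 = v x₁ * v x₂ * δ ^ 4 * v x₃ by ac_rfl, h4, one_mul] at h'
    have h6 : 1 ≤ v ν ^ 2 * δ ^ 6 := by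
      rw [show δ ^ 6 = (δ ^ 3) ^ 2 by rw [← pow_mul], ← mul_pow]; exact one_le_pow₀ hνδ
    have h7 : v ν ^ 2 * δ ^ 6 = v x₃ * δ ^ 2 := by
      rw [h', mul_assoc, ← pow_add]
    rw [h7] at h6
    exact absurd h6 (not_le.2 (gamma_mul_lt_one hle (pow_lt_one₀ zero_le hδ two_ne_zero)))
  refine ⟨hX₃, ?_⟩
  have he₃' : (crv a₁ a₂ a₄).Equation x₃ (l * x₃ + ν) := by
    have := (equation_neg x₃ (-(l * x₃ + ν) - a₁ * x₃)).2 he₃
    rwa [crv_negY, show -(-(l * x₃ + ν) - a₁ * x₃) - a₁ * x₃ = l * x₃ + ν by ring] at this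
  obtain ⟨hy₃, -, -, -, hya₃⟩ := crv_kernel_coords v hI he₃' hX₃
  have hsum := crv_line_sum v hI hδ hν hy₁ hy₂ hy₃ e1 e2 e3 hl hνδ
  have hd₃ : v (x₃ / (l * x₃ + ν)) ≤ δ := by
    rw [show x₃ / (l * x₃ + ν) = (x₁ / (l * x₁ + ν) + x₂ / (l * x₂ + ν) + x₃ / (l * x₃ + ν)) -
      (x₁ / (l * x₁ + ν) + x₂ / (l * x₂ + ν)) by ring]
    exact v.map_sub_le (hsum.trans (pow_le_of_le_one zero_le hδ.le two_ne_zero))
      (v.map_add_le hd₁.le hd₂.le)
  have hya0 : l * x₃ + ν + a₁ * x₃ ≠ 0 :=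
    v.ne_zero_iff.1 (hya₃ ▸ v.ne_zero_iff.2 hy₃)
  rw [show -x₃ / (-(l * x₃ + ν) - a₁ * x₃) - (-x₁ / (l * x₁ + ν) + -x₂ / (l * x₂ + ν)) =
      (x₁ / (l * x₁ + ν) + x₂ / (l * x₂ + ν) + x₃ / (l * x₃ + ν)) +
        (x₃ / (l * x₃ + ν + a₁ * x₃) - x₃ / (l * x₃ + ν)) by
    rw [show -(l * x₃ + ν) - a₁ * x₃ = -(l * x₃ + ν + a₁ * x₃) by ring, neg_div_neg_eq,
      neg_div, neg_div]
    ring]
  refine v.map_add_le hsum ?_
  rw [show x₃ / (l * x₃ + ν + a₁ * x₃) - x₃ / (l * x₃ + ν) =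
      -a₁ * (x₃ / (l * x₃ + ν)) * (x₃ / (l * x₃ + ν + a₁ * x₃)) by
    generalize l * x₃ + ν = u₃ at hy₃ hya0 ⊢
    rw [div_sub_div _ _ hya0 hy₃, mul_assoc (-a₁), div_mul_div_comm]
    ring, map_mul, map_mul, v.map_neg, sq]
  refine mul_le_mul' ((mul_le_of_le_one_left' hI.a₁_le).trans hd₃) ?_
  rw [map_div₀, hya₃, ← map_div₀]
  exact hd₃

variable [DecidableEq F]

/-- Addition of two kernel points of the same depth adds parameters up to second order. -/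
theorem crv_kernel_add (hI : IntCrv v a₁ a₂ a₄)
    (h₁ : (crv a₁ a₂ a₄).Nonsingular x₁ y₁) (h₂ : (crv a₁ a₂ a₄).Nonsingular x₂ y₂)
    (hx₁ : 1 < v x₁) (hx₂ : 1 < v x₂) (hd : v (x₂ / y₂) = v (x₁ / y₁))
    (hcase : x₁ ≠ x₂ ∨ (x₁ = x₂ ∧ y₁ = y₂ ∧ v (2 : F) = 1 ∧
      (2 : ℕ) • Point.some x₁ y₁ h₁ ≠ 0)) :
    ∃ (x₃ y₃ : F) (h₃ : (crv a₁ a₂ a₄).Nonsingular x₃ y₃),
      Point.some x₁ y₁ h₁ + Point.some x₂ y₂ h₂ = Point.some x₃ y₃ h₃ ∧ 1 < v x₃ ∧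
      v (-x₃ / y₃ - (-x₁ / y₁ + -x₂ / y₂)) ≤ v (x₁ / y₁) ^ 2 := by
  obtain ⟨hy₁, hδ, hX₁, hY₁, hya₁⟩ := crv_kernel_coords v hI h₁.1 hx₁
  obtain ⟨hy₂, -, hX₂, hY₂, -⟩ := crv_kernel_coords v hI h₂.1 hx₂
  rw [hd] at hX₂ hY₂
  rcases hcase with hne | ⟨hxe, hye, h2v, h2ne⟩
  · obtain ⟨x₃, y₃, h₃, he, hx₃, hy₃⟩ := crv_chord h₁ h₂ hne
    have hprod := crv_prod_x h₁.1 h₂.1 hne
    rw [← hx₃] at hprod
    generalize hl' : (y₁ - y₂) / (x₁ - x₂) = l at hprod hx₃ hy₃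
    have hd0 : x₁ - x₂ ≠ 0 := sub_ne_zero.2 hne
    have hl'' : l * (x₁ - x₂) = y₁ - y₂ := by rw [← hl']; field_simp
    generalize hν' : y₁ - l * x₁ = ν at hprod
    have hy1e : y₁ = l * x₁ + ν := by linear_combination hν'
    have hy2e : y₂ = l * x₂ + ν := by linear_combination hν' + hl''
    have hy3e : y₃ = -(l * x₃ + ν) - a₁ * x₃ := by linear_combination hy₃ - hν'
    refine ⟨x₃, y₃, h₃, he, ?_⟩
    have hdd : v (x₂ / y₂) = v (x₁ / y₁) := hd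
    have hzne : -x₁ / y₁ - -x₂ / y₂ ≠ 0 := by
      intro h0
      have hw : (-1 / y₁ - -1 / y₂) * (1 - a₁ * (-x₂ / y₂) - a₂ * (-x₂ / y₂) ^ 2 -
          a₄ * (-x₂ / y₂) * (-1 / y₁ + -1 / y₂)) = (-x₁ / y₁ - -x₂ / y₂) *
          ((-x₁ / y₁) ^ 2 + (-x₁ / y₁) * (-x₂ / y₂) + (-x₂ / y₂) ^ 2 + a₁ * (-1 / y₁) +
            a₂ * (-x₁ / y₁ + -x₂ / y₂) * (-1 / y₁) + a₄ * (-1 / y₁) ^ 2) := by
        field_simp
        linear_combination (-(y₂ ^ 3)) * crv_equation h₁.1 + (y₁ ^ 3) * crv_equation h₂.1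
      rw [h0, zero_mul, mul_eq_zero] at hw
      rcases hw with hw | hw
      · have : y₁ = y₂ := by
          field_simp at hw
          linear_combination hw
        subst this
        field_simp at h0
        exact hne (by linear_combination -h0)
      · have hlt : v (a₁ * (-x₂ / y₂) + a₂ * (-x₂ / y₂) ^ 2 +
            a₄ * (-x₂ / y₂) * (-1 / y₁ + -1 / y₂)) < 1 := by
          have hz : v (-x₂ / y₂) < 1 := by rw [neg_div, v.map_neg, hdd]; exact hδ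
          have hw' : ∀ {a b : F}, 1 < v a → b ≠ 0 → v (a / b) < 1 → v (-1 / b) ≤ 1 := by
            intro a b ha hb hab
            rw [map_div₀, v.map_neg, map_one, div_le_one₀ (zero_lt_iff.2 (v.ne_zero_iff.2 hb))]
            rw [map_div₀, div_lt_one₀ (zero_lt_iff.2 (v.ne_zero_iff.2 hb))] at hab
            exact (ha.trans hab).le
          refine v.map_add_lt (v.map_add_lt ?_ ?_) ?_ <;> simp only [map_mul, map_pow]
          · exact gamma_mul_lt_one hI.a₁_le hz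
          · exact gamma_mul_lt_one hI.a₂_le (pow_lt_one₀ zero_le hz two_ne_zero)
          · exact gamma_mul_lt_one' (gamma_mul_lt_one hI.a₄_le hz)
              (v.map_add_le (hw' hx₁ hy₁ hδ) (hw' hx₂ hy₂ (hdd ▸ hδ)))
        have : v (1 - a₁ * (-x₂ / y₂) - a₂ * (-x₂ / y₂) ^ 2 -
            a₄ * (-x₂ / y₂) * (-1 / y₁ + -1 / y₂)) = 1 := by
          rw [show 1 - a₁ * (-x₂ / y₂) - a₂ * (-x₂ / y₂) ^ 2 -
              a₄ * (-x₂ / y₂) * (-1 / y₁ + -1 / y₂) = 1 - (a₁ * (-x₂ / y₂) +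
                a₂ * (-x₂ / y₂) ^ 2 + a₄ * (-x₂ / y₂) * (-1 / y₁ + -1 / y₂)) by ring,
            v.map_one_sub_of_lt hlt]
        rw [hw, map_zero] at this
        exact zero_ne_one this
    -- the slope `L` of the line in the `(z, w)` plane
    have hL : ∃ L : F, v L ≤ v (x₁ / y₁) ^ 2 ∧
        -1 / y₁ - -1 / y₂ = L * (-x₁ / y₁ - -x₂ / y₂) := by
      set z₁ := -x₁ / y₁ with hz₁
      set z₂ := -x₂ / y₂ with hz₂
      set w₁ := -1 / y₁ with hw₁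
      set w₂ := -1 / y₂ with hw₂
      have hvz₁ : v z₁ = v (x₁ / y₁) := by rw [hz₁, neg_div, v.map_neg]
      have hvz₂ : v z₂ = v (x₁ / y₁) := by rw [hz₂, neg_div, v.map_neg, hdd]
      have hvw₁ : v w₁ ≤ v (x₁ / y₁) ^ 3 := by
        rw [hw₁, map_div₀, v.map_neg, map_one,
          div_le_iff₀ (zero_lt_iff.2 (v.ne_zero_iff.2 hy₁)), mul_comm, hY₁]
      have hvw₂ : v w₂ ≤ v (x₁ / y₁) ^ 3 := by
        rw [hw₂, map_div₀, v.map_neg, map_one,
          div_le_iff₀ (zero_lt_iff.2 (v.ne_zero_iff.2 hy₂)), mul_comm, hY₂]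
      have hw : (w₁ - w₂) * (1 - a₁ * z₂ - a₂ * z₂ ^ 2 - a₄ * z₂ * (w₁ + w₂)) = (z₁ - z₂) *
          (z₁ ^ 2 + z₁ * z₂ + z₂ ^ 2 + a₁ * w₁ + a₂ * (z₁ + z₂) * w₁ + a₄ * w₁ ^ 2) := by
        rw [hz₁, hz₂, hw₁, hw₂]
        field_simp
        linear_combination (-(y₂ ^ 3)) * crv_equation h₁.1 + (y₁ ^ 3) * crv_equation h₂.1
      have hden : v (1 - a₁ * z₂ - a₂ * z₂ ^ 2 - a₄ * z₂ * (w₁ + w₂)) = 1 := by
        rw [show 1 - a₁ * z₂ - a₂ * z₂ ^ 2 - a₄ * z₂ * (w₁ + w₂) =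
          1 - (a₁ * z₂ + a₂ * z₂ ^ 2 + a₄ * z₂ * (w₁ + w₂)) by ring, v.map_one_sub_of_lt]
        refine v.map_add_lt (v.map_add_lt ?_ ?_) ?_ <;> simp only [map_mul, map_pow]
        · exact gamma_mul_lt_one hI.a₁_le (hvz₂ ▸ hδ)
        · exact gamma_mul_lt_one hI.a₂_le (pow_lt_one₀ zero_le (hvz₂ ▸ hδ) two_ne_zero)
        · exact gamma_mul_lt_one' (gamma_mul_lt_one hI.a₄_le (hvz₂ ▸ hδ))
            ((v.map_add_le hvw₁ hvw₂).trans (pow_le_one' hδ.le 3))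
      have hd3 : v (x₁ / y₁) ^ 3 ≤ v (x₁ / y₁) ^ 2 :=
        pow_le_pow_right_of_le_one' hδ.le (by norm_num)
      refine ⟨(z₁ ^ 2 + z₁ * z₂ + z₂ ^ 2 + a₁ * w₁ + a₂ * (z₁ + z₂) * w₁ + a₄ * w₁ ^ 2) /
        (1 - a₁ * z₂ - a₂ * z₂ ^ 2 - a₄ * z₂ * (w₁ + w₂)), ?_, ?_⟩
      · rw [map_div₀, hden, div_one]
        refine v.map_add_le (v.map_add_le (v.map_add_le (v.map_add_le (v.map_add_le ?_ ?_) ?_) ?_)
          ?_) ?_ <;> simp only [map_mul, map_pow]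
        · rw [hvz₁]
        · rw [hvz₁, hvz₂, sq]
        · rw [hvz₂]
        · exact (mul_le_of_le_one_left' hI.a₁_le).trans (hvw₁.trans hd3)
        · exact (mul_le_of_le_one_left' (mul_le_one' hI.a₂_le
            (v.map_add_le (hvz₁.le.trans hδ.le) (hvz₂.le.trans hδ.le)))).trans (hvw₁.trans hd3)
        · refine (mul_le_of_le_one_left' hI.a₄_le).trans ?_
          exact (pow_le_of_le_one zero_le (hvw₁.trans (pow_le_one' hδ.le 3)) two_ne_zero).trans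
            (hvw₁.trans hd3)
      · have hne0 : 1 - a₁ * z₂ - a₂ * z₂ ^ 2 - a₄ * z₂ * (w₁ + w₂) ≠ 0 :=
          v.ne_zero_iff.1 (by rw [hden]; exact one_ne_zero)
        rw [div_mul_eq_mul_div, eq_div_iff hne0, hw]
        ring
    obtain ⟨L, hL, hwL⟩ := hL
    -- `1 = -l zᵢ - ν wᵢ`, so `l = -νL` and `1 = -ν M`
    have hline₁ : 1 = -l * (-x₁ / y₁) - ν * (-1 / y₁) := by
      field_simp; linear_combination hy1e
    have hline₂ : 1 = -l * (-x₂ / y₂) - ν * (-1 / y₂) := by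
      field_simp; linear_combination hy2e
    have hlL : l = -ν * L := by
      refine mul_right_cancel₀ hzne ?_
      linear_combination hline₁ - hline₂ - ν * hwL
    have hM : 1 = ν * (L * (-x₁ / y₁) - -1 / y₁) := by
      rw [hlL] at hline₁; linear_combination hline₁
    have hνδ : 1 ≤ v ν * v (x₁ / y₁) ^ 3 := by
      calc (1 : Γ) = v (1 : F) := (map_one v).symm
        _ = v ν * v (L * (-x₁ / y₁) - -1 / y₁) := by rw [← map_mul, ← hM]
        _ ≤ v ν * v (x₁ / y₁) ^ 3 := by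
          refine mul_le_mul' le_rfl (v.map_sub_le ?_ ?_)
          · rw [map_mul, neg_div, v.map_neg, pow_succ]
            exact mul_le_mul' hL le_rfl
          · rw [map_div₀ v (-1), v.map_neg, map_one,
              div_le_iff₀ (zero_lt_iff.2 (v.ne_zero_iff.2 hy₁)), mul_comm, hY₁]
    have hl : v l ≤ v ν * v (x₁ / y₁) ^ 2 := by
      rw [hlL, map_mul, v.map_neg]; exact mul_le_mul' le_rfl hL
    have e1 : x₁ + x₂ + x₃ = l ^ 2 + a₁ * l - a₂ := by linear_combination hx₃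
    have e2 : x₁ * x₂ + x₁ * x₃ + x₂ * x₃ = a₄ - 2 * l * ν - a₁ * ν := by
      refine mul_left_cancel₀ hd0 ?_
      have E₁ := crv_equation h₁.1
      have E₂ := crv_equation h₂.1
      rw [hy1e] at E₁
      rw [hy2e] at E₂
      linear_combination E₁ - E₂ + (x₁ ^ 2 - x₂ ^ 2) * e1
    subst hy1e hy2e hy3e
    exact crv_line_step v hI hx₁ h₁.1 rfl hx₂ h₂.1 hd h₃.1 e1 e2 hprod hl hνδ
  · subst hxe hye
    obtain ⟨x₃, y₃, h₃, he, hdb, hx₃, hy₃⟩ := crv_double h₁ h2ne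
    have hw : 2 * y₁ + a₁ * x₁ ≠ 0 := crv_two_nsmul_ne_zero h₁ h2ne
    generalize hl' : (3 * x₁ ^ 2 + 2 * a₂ * x₁ + a₄ - a₁ * y₁) / (2 * y₁ + a₁ * x₁) = l at hx₃ hy₃
    have hl'' : l * (2 * y₁ + a₁ * x₁) = 3 * x₁ ^ 2 + 2 * a₂ * x₁ + a₄ - a₁ * y₁ := by
      rw [← hl', div_mul_cancel₀ _ hw]
    generalize hν' : y₁ - l * x₁ = ν
    have hy1e : y₁ = l * x₁ + ν := by linear_combination hν'
    have hy3e : y₃ = -(l * x₃ + ν) - a₁ * x₃ := by linear_combination hy₃ - hν'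
    refine ⟨x₃, y₃, h₃, by rw [← two_nsmul]; exact he, ?_⟩
    have hνw : ν * (2 * y₁ + a₁ * x₁) = -(x₁ ^ 3 - a₄ * x₁) := by
      linear_combination 2 * crv_equation h₁.1 - x₁ * hl'' - (2 * y₁ + a₁ * x₁) * hν'
    have hδ0 : v (x₁ / y₁) ≠ 0 := fun h => by rw [h] at hX₁; simp at hX₁
    have hvw : v (2 * y₁ + a₁ * x₁) = v y₁ := by
      have hlt : v (a₁ * x₁) < v y₁ := by
        rw [map_mul]
        refine lt_of_le_of_lt (mul_le_of_le_one_left' hI.a₁_le) ?_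
        rw [map_div₀, div_lt_one₀ (zero_lt_iff.2 (v.ne_zero_iff.2 hy₁))] at hδ
        exact hδ
      rw [v.map_add_eq_of_lt_left, map_mul, h2v, one_mul]
      rw [map_mul v 2, h2v, one_mul]; exact hlt
    have hνv : v ν * v y₁ = v x₁ ^ 3 := by
      rw [← hvw, ← map_mul, hνw, v.map_neg, v.map_sub_eq_of_lt_left, map_pow]
      rw [map_mul, map_pow]
      refine lt_of_le_of_lt (mul_le_of_le_one_left' hI.a₄_le) ?_
      calc v x₁ = v x₁ ^ 1 := (pow_one _).symm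
        _ < v x₁ ^ 3 := pow_lt_pow_right₀ hx₁ (by norm_num)
    have hνδ : v ν * v (x₁ / y₁) ^ 3 = 1 := by
      refine mul_right_cancel₀ (v.ne_zero_iff.2 hy₁) ?_
      refine mul_right_cancel₀ (pow_ne_zero 3 hδ0) ?_
      calc v ν * v (x₁ / y₁) ^ 3 * v y₁ * v (x₁ / y₁) ^ 3
          = v ν * v y₁ * (v (x₁ / y₁) ^ 3 * v (x₁ / y₁) ^ 3) := by ac_rfl
        _ = (v x₁ * v (x₁ / y₁) ^ 2) ^ 3 := by rw [hνv, mul_pow, ← pow_mul, ← pow_add]
        _ = 1 * v y₁ * v (x₁ / y₁) ^ 3 := by rw [hX₁, one_pow, one_mul, hY₁]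
    have hl : v l ≤ v ν * v (x₁ / y₁) ^ 2 := by
      refine le_of_mul_le_mul_right ?_ (zero_lt_iff.2 (v.ne_zero_iff.2 hw))
      rw [← map_mul, hl'', hvw, mul_right_comm (v ν) _ (v y₁), hνv]
      have hX2 : v x₁ ^ 2 = v x₁ ^ 3 * v (x₁ / y₁) ^ 2 := by
        rw [pow_succ (v x₁) 2, mul_assoc, hX₁, mul_one]
      rw [← hX2]
      have hXle : v x₁ ≤ v x₁ ^ 2 := le_self_pow₀ hx₁.le two_ne_zero
      refine v.map_sub_le (v.map_add_le (v.map_add_le ?_ ?_) ?_) ?_ <;>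
        (try simp only [map_mul, map_pow])
      · exact mul_le_of_le_one_left' (val_ofNat_le_one v 3)
      · exact (mul_le_of_le_one_left' (mul_le_one' (val_ofNat_le_one v 2) hI.a₂_le)).trans hXle
      · exact hI.a₄_le.trans (one_le_pow₀ hx₁.le)
      · refine (mul_le_of_le_one_left' hI.a₁_le).trans ?_
        refine le_of_mul_le_mul_right ?_ (zero_lt_iff.2 (pow_ne_zero 3 hδ0))
        rw [hY₁]
        calc (1 : Γ) = (v x₁ * v (x₁ / y₁) ^ 2) ^ 2 := by rw [hX₁, one_pow]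
          _ = v x₁ ^ 2 * v (x₁ / y₁) ^ 4 := by rw [mul_pow, ← pow_mul]
          _ ≤ v x₁ ^ 2 * v (x₁ / y₁) ^ 3 :=
            mul_le_mul' le_rfl (pow_le_pow_right_of_le_one' hδ.le (by norm_num))
    have e1 : x₁ + x₁ + x₃ = l ^ 2 + a₁ * l - a₂ := by linear_combination hx₃
    have e2 : x₁ * x₁ + x₁ * x₃ + x₁ * x₃ = a₄ - 2 * l * ν - a₁ * ν := by
      linear_combination (2 * x₁) * e1 + hl'' - (2 * l + a₁) * hν'
    have e3 : x₁ * x₁ * x₃ = ν ^ 2 := by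
      refine mul_right_cancel₀ (pow_ne_zero 2 hw) ?_
      linear_combination x₁ ^ 2 * hdb - (ν * (2 * y₁ + a₁ * x₁) + -(x₁ ^ 3 - a₄ * x₁)) * hνw
    subst hy1e hy3e
    exact crv_line_step v hI hx₁ h₁.1 rfl hx₁ h₁.1 rfl h₃.1 e1 e2 e3 hl hνδ.ge

/-- The multiples of a deepest kernel point of order `p`. -/
theorem crv_kernel_multiples (hI : IntCrv v a₁ a₂ a₄) (hv2 : v (2 : F) = 1)
    (h : (crv a₁ a₂ a₄).Nonsingular x y) (hx : 1 < v x) {p : ℕ} (hp : p.Prime) (hp2 : p ≠ 2)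
    (hpP : p • Point.some x y h = 0)
    (hmax : ∀ (k : ℕ) (x' y' : F) (h' : (crv a₁ a₂ a₄).Nonsingular x' y'),
      k • Point.some x y h = Point.some x' y' h' → v x' ≤ v x) :
    v (p : F) < 1 ∧ ∀ k : ℕ, 1 ≤ k → k < p →
      ∃ (x' y' : F) (h' : (crv a₁ a₂ a₄).Nonsingular x' y'),
        k • Point.some x y h = Point.some x' y' h' ∧ v x' = v x ∧ v (k : F) = 1 ∧
        v (-x' / y' - k * (-x / y)) ≤ v (x / y) ^ 2 := by
  obtain ⟨hy, hδ, hX, hY, hya⟩ := crv_kernel_coords v hI h.1 hx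
  have hδ0 : 0 < v (x / y) := zero_lt_iff.2 fun h0 => by rw [h0] at hX; simp at hX
  have hord : ∀ k : ℕ, k • Point.some x y h = 0 → p ∣ k := by
    intro k hk
    rw [← addOrderOf_dvd_iff_nsmul_eq_zero] at hk
    have : addOrderOf (Point.some x y h) = p := by
      have := Fact.mk hp
      exact addOrderOf_eq_prime hpP (Point.some_ne_zero h)
    rwa [this] at hk
  have h2lt : 2 < p := lt_of_le_of_ne hp.two_le (Ne.symm hp2)
  -- equal depth: `v (x'/y') = v (x/y)`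
  have hdepth : ∀ (x' y' : F) (h' : (crv a₁ a₂ a₄).Nonsingular x' y'), v x' = v x →
      v (x' / y') = v (x / y) := by
    intro x' y' h' he
    obtain ⟨-, -, hX', -, -⟩ := crv_kernel_coords v hI h'.1 (he ▸ hx)
    rw [he, ← hX] at hX'
    exact (pow_left_inj₀ zero_le zero_le two_ne_zero).1
      (mul_left_cancel₀ (v.ne_zero_iff.2 fun h0 => by rw [h0, map_zero] at hx; exact absurd hx (not_lt.2 zero_le)) hX')
  have hz : ∀ (a b : F), v (-a / b) = v (a / b) := fun a b => by rw [neg_div, v.map_neg]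
  have key : ∀ k : ℕ, 1 ≤ k → k < p →
      ∃ (x' y' : F) (h' : (crv a₁ a₂ a₄).Nonsingular x' y'),
        k • Point.some x y h = Point.some x' y' h' ∧ v x' = v x ∧ v (k : F) = 1 ∧
        v (-x' / y' - k * (-x / y)) ≤ v (x / y) ^ 2 := by
    intro k hk1
    induction k, hk1 using Nat.le_induction with
    | base => exact fun _ => ⟨x, y, h, one_nsmul _, rfl, by simp, by simp⟩
    | succ k hk ih =>
      intro hkp
      obtain ⟨x', y', h', he, hx', -, hz'⟩ := ih (by omega)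
      have hd' := hdepth x' y' h' hx'
      have hcase : x' ≠ x ∨ (x' = x ∧ y' = y ∧ v (2 : F) = 1 ∧
          (2 : ℕ) • Point.some x' y' h' ≠ 0) := by
        by_cases hxe : x' = x
        · subst hxe
          rcases Y_eq_of_X_eq h'.1 h.1 rfl with hye | hye
          · subst hye
            exact Or.inr ⟨rfl, rfl, hv2, fun h0 =>
              absurd (Nat.le_of_dvd two_pos (hord 2 h0)) (by omega)⟩
          · refine absurd (Nat.le_of_dvd (by omega) (hord (k + 1) ?_)) (by omega)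
            rw [succ_nsmul, he]
            exact Point.add_of_Y_eq rfl hye
        · exact Or.inl hxe
      obtain ⟨x₃, y₃, h₃, he₃, hx₃, hz₃⟩ :=
        crv_kernel_add v hI h' h (hx' ▸ hx) hx hd'.symm hcase
      rw [hd'] at hz₃
      have hek : (k + 1) • Point.some x y h = Point.some x₃ y₃ h₃ := by
        rw [succ_nsmul, he]; exact he₃
      have hzk : v (-x₃ / y₃ - ((k + 1 : ℕ) : F) * (-x / y)) ≤ v (x / y) ^ 2 := by
        rw [show -x₃ / y₃ - ((k + 1 : ℕ) : F) * (-x / y) =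
          (-x₃ / y₃ - (-x' / y' + -x / y)) + (-x' / y' - k * (-x / y)) by push_cast; ring]
        exact v.map_add_le hz₃ hz'
      have hsq : v (x / y) ^ 2 < v (x / y) := by
        rw [sq]; exact mul_lt_of_lt_one_left hδ0 hδ
      have hle : v (-x₃ / y₃) ≤ v (x / y) := by
        rw [show -x₃ / y₃ = (-x₃ / y₃ - ((k + 1 : ℕ) : F) * (-x / y)) +
          ((k + 1 : ℕ) : F) * (-x / y) by ring]
        refine v.map_add_le (hzk.trans hsq.le) ?_
        rw [map_mul, hz]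
        exact mul_le_of_le_one_left' (val_natCast_le_one v _)
      have hx₃' : v x₃ = v x := by
        refine le_antisymm (hmax _ _ _ _ hek) ?_
        obtain ⟨-, -, hX₃, -, -⟩ := crv_kernel_coords v hI h₃.1 hx₃
        rw [hz] at hle
        refine le_of_mul_le_mul_right ?_ (pow_pos hδ0 2)
        rw [hX, ← hX₃]
        exact mul_le_mul' le_rfl (pow_le_pow_left' hle 2)
      refine ⟨x₃, y₃, h₃, hek, hx₃', ?_, hzk⟩
      refine le_antisymm (val_natCast_le_one v _) (le_of_not_gt fun hlt => ?_)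
      have : v (-x₃ / y₃) < v (x / y) := by
        rw [show -x₃ / y₃ = (-x₃ / y₃ - ((k + 1 : ℕ) : F) * (-x / y)) +
          ((k + 1 : ℕ) : F) * (-x / y) by ring]
        refine v.map_add_lt (lt_of_le_of_lt hzk hsq) ?_
        rw [map_mul, hz]
        exact mul_lt_of_lt_one_left hδ0 hlt
      rw [hz, hdepth x₃ y₃ h₃ hx₃'] at this
      exact lt_irrefl _ this
  refine ⟨?_, key⟩
  obtain ⟨x', y', h', he, -, -, hz'⟩ := key (p - 1) (by omega) (by omega)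
  have hneg : Point.some x' y' h' = -Point.some x y h := by
    rw [← he, eq_neg_iff_add_eq_zero, ← succ_nsmul, Nat.sub_add_cancel hp.one_lt.le, hpP]
  rw [Point.neg_some, Point.some.injEq, crv_negY] at hneg
  obtain ⟨rfl, rfl⟩ := hneg
  have hya0 : y + a₁ * x' ≠ 0 := v.ne_zero_iff.1 (hya ▸ v.ne_zero_iff.2 hy)
  have hkey : (p : F) * (-x' / y) =
      a₁ * (x' / y) * (-x' / (y + a₁ * x')) +
        -(-x' / (-y - a₁ * x') - ((p - 1 : ℕ) : F) * (-x' / y)) := by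
    rw [Nat.cast_sub hp.one_lt.le, show -y - a₁ * x' = -(y + a₁ * x') by ring]
    push_cast
    generalize hw : y + a₁ * x' = w at hya0 ⊢
    field_simp
    subst hw
    ring
  have hle : v ((p : F) * (-x' / y)) ≤ v (x' / y) ^ 2 := by
    rw [hkey]
    refine v.map_add_le ?_ (by rw [v.map_neg]; exact hz')
    simp only [map_mul]
    rw [map_div₀ v (-x'), hya, v.map_neg, ← map_div₀, sq]
    exact mul_le_mul' (mul_le_of_le_one_left' hI.a₁_le) le_rfl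
  rw [map_mul, hz, sq] at hle
  exact lt_of_le_of_lt (le_of_mul_le_mul_right hle hδ0) hδ

end Fermat.Agent.S13
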