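import Mathlib.AlgebraicGeometry.EllipticCurve.Affine.Point
import Mathlib.Tactic.LinearCombination
import Mathlib.Tactic.FieldSimp

/-!
# Chord and tangent identities for `y² + a₁xy = x³ + a₂x² + a₄x`
-/

set_option autoImplicit false

namespace Fermat.Agent.S13

open WeierstrassCurve WeierstrassCurve.Affine

section Ring

variable {R : Type*} [CommRing R]

/-- The curve `y² + a₁xy = x³ + a₂x² + a₄x`. -/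
def crv (a₁ a₂ a₄ : R) : WeierstrassCurve.Affine R := ⟨a₁, a₂, 0, a₄, 0⟩

variable {a₁ a₂ a₄ x y : R}

theorem crv_equation (h : (crv a₁ a₂ a₄).Equation x y) :
    y ^ 2 + a₁ * x * y = x ^ 3 + a₂ * x ^ 2 + a₄ * x := by
  have := (equation_iff x y).1 h
  simp only [crv, zero_mul, add_zero] at this
  linear_combination this

theorem crv_negY : (crv a₁ a₂ a₄).negY x y = -y - a₁ * x := by
  simp [crv, negY]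

/-- `(2y + a₁x)² = 4x³ + (a₁² + 4a₂)x² + 4a₄x` on the curve. -/
theorem crv_sq_two_mul_add (h : (crv a₁ a₂ a₄).Equation x y) :
    (2 * y + a₁ * x) ^ 2 = 4 * x ^ 3 + (a₁ ^ 2 + 4 * a₂) * x ^ 2 + 4 * a₄ * x := by
  linear_combination (4 : R) * crv_equation h

end Ring

variable {F : Type*} [Field F] [DecidableEq F] {a₁ a₂ a₄ x y x₁ y₁ x₂ y₂ : F}

theorem crv_two_nsmul_ne_zero (h : (crv a₁ a₂ a₄).Nonsingular x y)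
    (h2 : (2 : ℕ) • Point.some x y h ≠ 0) : 2 * y + a₁ * x ≠ 0 := by
  intro hw
  refine h2 ?_
  rw [two_nsmul]
  refine Point.add_self_of_Y_eq ?_
  rw [crv_negY]
  linear_combination hw

/-- The duplication formula, with the tangent line. -/
theorem crv_double (h : (crv a₁ a₂ a₄).Nonsingular x y)
    (h2 : (2 : ℕ) • Point.some x y h ≠ 0) :
    ∃ (x' y' : F) (h' : (crv a₁ a₂ a₄).Nonsingular x' y'),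
      (2 : ℕ) • Point.some x y h = Point.some x' y' h' ∧
      x' * (2 * y + a₁ * x) ^ 2 = (x ^ 2 - a₄) ^ 2 ∧
      x' = ((3 * x ^ 2 + 2 * a₂ * x + a₄ - a₁ * y) / (2 * y + a₁ * x)) ^ 2 +
        a₁ * ((3 * x ^ 2 + 2 * a₂ * x + a₄ - a₁ * y) / (2 * y + a₁ * x)) - a₂ - x - x ∧
      y' = -(((3 * x ^ 2 + 2 * a₂ * x + a₄ - a₁ * y) / (2 * y + a₁ * x)) * (x' - x) + y) -
        a₁ * x' := by
  have hw := crv_two_nsmul_ne_zero h h2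
  have hy : y ≠ (crv a₁ a₂ a₄).negY x y := fun hy => hw <| by
    rw [crv_negY] at hy
    linear_combination hy
  have he : y - (crv a₁ a₂ a₄).negY x y = 2 * y + a₁ * x := by
    rw [crv_negY]; ring
  have hs : (crv a₁ a₂ a₄).slope x x y y =
      (3 * x ^ 2 + 2 * a₂ * x + a₄ - a₁ * y) / (2 * y + a₁ * x) := by
    rw [slope_of_Y_ne rfl hy, he]; rfl
  refine ⟨_, _, _, by rw [two_nsmul, Point.add_self_of_Y_ne hy], ?_, ?_, ?_⟩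
  · rw [addX, hs]
    simp only [crv]
    have hl := div_mul_cancel₀ (3 * x ^ 2 + 2 * a₂ * x + a₄ - a₁ * y) hw
    generalize (3 * x ^ 2 + 2 * a₂ * x + a₄ - a₁ * y) / (2 * y + a₁ * x) = ℓ at hl ⊢
    linear_combination (ℓ * (2 * y + a₁ * x) + (3 * x ^ 2 + 2 * a₂ * x + a₄ - a₁ * y) +
        a₁ * (2 * y + a₁ * x)) * hl + (-(a₁ ^ 2) - 4 * (a₂ + 2 * x)) * crv_equation h.1
  · rw [addX, hs]; rfl
  · rw [addY, negAddY, crv_negY, hs]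

/-- The sum of two points with different abscissae. -/
theorem crv_chord (h₁ : (crv a₁ a₂ a₄).Nonsingular x₁ y₁)
    (h₂ : (crv a₁ a₂ a₄).Nonsingular x₂ y₂) (hne : x₁ ≠ x₂) :
    ∃ (x₃ y₃ : F) (h₃ : (crv a₁ a₂ a₄).Nonsingular x₃ y₃),
      Point.some x₁ y₁ h₁ + Point.some x₂ y₂ h₂ = Point.some x₃ y₃ h₃ ∧
      x₃ = ((y₁ - y₂) / (x₁ - x₂)) ^ 2 + a₁ * ((y₁ - y₂) / (x₁ - x₂)) - a₂ - x₁ - x₂ ∧
      y₃ = -(((y₁ - y₂) / (x₁ - x₂)) * (x₃ - x₁) + y₁) - a₁ * x₃ := by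
  refine ⟨_, _, _, Point.add_of_X_ne hne, ?_, ?_⟩
  · rw [addX, slope_of_X_ne hne]; rfl
  · rw [addY, negAddY, crv_negY, slope_of_X_ne hne]

omit [DecidableEq F] in
/-- `x₁x₂x(P₁ + P₂) = ν²`, with `ν` the intercept of the chord. -/
theorem crv_prod_x (h₁ : (crv a₁ a₂ a₄).Equation x₁ y₁) (h₂ : (crv a₁ a₂ a₄).Equation x₂ y₂)
    (hne : x₁ ≠ x₂) :
    x₁ * x₂ * (((y₁ - y₂) / (x₁ - x₂)) ^ 2 + a₁ * ((y₁ - y₂) / (x₁ - x₂)) - a₂ - x₁ - x₂) =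
      (y₁ - (y₁ - y₂) / (x₁ - x₂) * x₁) ^ 2 := by
  have hd : x₁ - x₂ ≠ 0 := sub_ne_zero.2 hne
  field_simp
  linear_combination
    (x₂ * (x₁ - x₂)) * crv_equation h₁ + (-(x₁ * (x₁ - x₂))) * crv_equation h₂

theorem crv_sub_eq (h₁ : (crv a₁ a₂ a₄).Nonsingular x₁ y₁)
    (h₂ : (crv a₁ a₂ a₄).Nonsingular x₂ y₂) (hne : x₁ ≠ x₂) :
    ∃ (x₃ y₃ : F) (h₃ : (crv a₁ a₂ a₄).Nonsingular x₃ y₃),
      Point.some x₁ y₁ h₁ - Point.some x₂ y₂ h₂ = Point.some x₃ y₃ h₃ ∧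
      x₃ = ((y₁ + y₂ + a₁ * x₂) / (x₁ - x₂)) ^ 2 +
        a₁ * ((y₁ + y₂ + a₁ * x₂) / (x₁ - x₂)) - a₂ - x₁ - x₂ ∧
      x₃ * (x₁ - x₂) ^ 2 * (x₁ * x₂) = (x₂ * y₁ + x₁ * (y₂ + a₁ * x₂)) ^ 2 := by
  obtain ⟨x₃, y₃, h₃, he, hx, -⟩ := crv_chord h₁ ((nonsingular_neg x₂ y₂).2 h₂) hne
  have hy : y₁ - (crv a₁ a₂ a₄).negY x₂ y₂ = y₁ + y₂ + a₁ * x₂ := by
    rw [crv_negY]; ring
  have hprod := crv_prod_x h₁.1 ((equation_neg x₂ y₂).2 h₂.1) hne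
  rw [hy] at hx hprod
  refine ⟨x₃, y₃, h₃, by rw [sub_eq_add_neg, Point.neg_some]; exact he, hx, ?_⟩
  rw [← hx] at hprod
  have hd : x₁ - x₂ ≠ 0 := sub_ne_zero.2 hne
  calc x₃ * (x₁ - x₂) ^ 2 * (x₁ * x₂) = x₁ * x₂ * x₃ * (x₁ - x₂) ^ 2 := by ring
    _ = ((y₁ - (y₁ + y₂ + a₁ * x₂) / (x₁ - x₂) * x₁) * (x₁ - x₂)) ^ 2 := by rw [hprod]; ring
    _ = (y₁ * (x₁ - x₂) - (y₁ + y₂ + a₁ * x₂) * x₁) ^ 2 := by field_simp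
    _ = _ := by ring

theorem crv_add_eq (h₁ : (crv a₁ a₂ a₄).Nonsingular x₁ y₁)
    (h₂ : (crv a₁ a₂ a₄).Nonsingular x₂ y₂) (hne : x₁ ≠ x₂) :
    ∃ (x₃ y₃ : F) (h₃ : (crv a₁ a₂ a₄).Nonsingular x₃ y₃),
      Point.some x₁ y₁ h₁ + Point.some x₂ y₂ h₂ = Point.some x₃ y₃ h₃ ∧
      x₃ * (x₁ - x₂) ^ 2 * (x₁ * x₂) = (x₂ * y₁ - x₁ * y₂) ^ 2 := by
  obtain ⟨x₃, y₃, h₃, he, hx, -⟩ := crv_chord h₁ h₂ hne
  have hprod := crv_prod_x h₁.1 h₂.1 hne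
  rw [← hx] at hprod
  refine ⟨x₃, y₃, h₃, he, ?_⟩
  have hd : x₁ - x₂ ≠ 0 := sub_ne_zero.2 hne
  calc x₃ * (x₁ - x₂) ^ 2 * (x₁ * x₂) = x₁ * x₂ * x₃ * (x₁ - x₂) ^ 2 := by ring
    _ = ((y₁ - (y₁ - y₂) / (x₁ - x₂) * x₁) * (x₁ - x₂)) ^ 2 := by rw [hprod]; ring
    _ = (y₁ * (x₁ - x₂) - (y₁ - y₂) * x₁) ^ 2 := by field_simp
    _ = _ := by ring

/-- `x(P₁ + P₂) x(P₁ - P₂) (x₁ - x₂)² = (x₁x₂ - a₄)²`. -/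
theorem crv_add_mul_sub (h₁ : (crv a₁ a₂ a₄).Nonsingular x₁ y₁)
    (h₂ : (crv a₁ a₂ a₄).Nonsingular x₂ y₂) (hne : x₁ ≠ x₂) (hx₁ : x₁ ≠ 0) (hx₂ : x₂ ≠ 0) :
    ∃ (x₃ y₃ : F) (h₃ : (crv a₁ a₂ a₄).Nonsingular x₃ y₃)
      (x₄ y₄ : F) (h₄ : (crv a₁ a₂ a₄).Nonsingular x₄ y₄),
      Point.some x₁ y₁ h₁ + Point.some x₂ y₂ h₂ = Point.some x₃ y₃ h₃ ∧
      Point.some x₁ y₁ h₁ - Point.some x₂ y₂ h₂ = Point.some x₄ y₄ h₄ ∧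
      x₃ * x₄ * (x₁ - x₂) ^ 2 = (x₁ * x₂ - a₄) ^ 2 := by
  obtain ⟨x₃, y₃, h₃, he₃, hp⟩ := crv_add_eq h₁ h₂ hne
  obtain ⟨x₄, y₄, h₄, he₄, -, hm⟩ := crv_sub_eq h₁ h₂ hne
  refine ⟨x₃, y₃, h₃, x₄, y₄, h₄, he₃, he₄, ?_⟩
  have hν : (x₂ * y₁ - x₁ * y₂) * (x₂ * y₁ + x₁ * (y₂ + a₁ * x₂)) =
      x₁ * x₂ * (x₁ - x₂) * (x₁ * x₂ - a₄) := by
    linear_combination x₂ ^ 2 * crv_equation h₁.1 - x₁ ^ 2 * crv_equation h₂.1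
  refine mul_left_cancel₀ (mul_ne_zero
    (pow_ne_zero 2 (mul_ne_zero hx₁ hx₂)) (pow_ne_zero 2 (sub_ne_zero.2 hne))) ?_
  linear_combination
    x₄ * (x₁ - x₂) ^ 2 * (x₁ * x₂) * hp + (x₂ * y₁ - x₁ * y₂) ^ 2 * hm +
    ((x₂ * y₁ - x₁ * y₂) * (x₂ * y₁ + x₁ * (y₂ + a₁ * x₂)) +
      x₁ * x₂ * (x₁ - x₂) * (x₁ * x₂ - a₄)) * hν

end Fermat.Agent.S13
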