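import Fermat.Agent.S13.Local
import Fermat.Prelude.Def_FLTPrelim_FreyPackage
import Fermat.Prelude.Def_FLTPrelim_GaloisRep

/-!
# The Frey curve in the form `y² + xy = x³ + a₂x² + a₄x`, place by place
-/

set_option autoImplicit false

noncomputable section

namespace Fermat.Agent.S13

open WeierstrassCurve WeierstrassCurve.Affine Fermat.Agent.Galois
open scoped WeierstrassCurve.Affine

variable (P : FreyPackage)

/-- The coefficient `a₂` of the Frey curve in `ℚ̄`. -/
def freyA₂ : Qbar := ((P.b : Qbar) ^ P.p - 1 - (P.a : Qbar) ^ P.p) / 4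

/-- The coefficient `a₄` of the Frey curve in `ℚ̄`. -/
def freyA₄ : Qbar := -((P.a : Qbar) ^ P.p) * (P.b : Qbar) ^ P.p / 16

theorem freyCurve_eq_crv :
    (P.freyCurve⁄Qbar : WeierstrassCurve.Affine Qbar) = crv 1 (freyA₂ P) (freyA₄ P) := by
  ext <;> simp [crv, FreyPackage.freyCurve, WeierstrassCurve.Affine.baseChange,
    WeierstrassCurve.baseChange, WeierstrassCurve.map, freyA₂, freyA₄]

theorem qbar_flt : (P.a : Qbar) ^ P.p + (P.b : Qbar) ^ P.p = (P.c : Qbar) ^ P.p := by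
  exact_mod_cast congrArg (Int.cast : ℤ → Qbar) P.hFLT

theorem freyCrv_Δ_ne_zero : (crv 1 (freyA₂ P) (freyA₄ P)).Δ ≠ 0 := by
  have h : 256 * (crv 1 (freyA₂ P) (freyA₄ P)).Δ =
      ((P.a : Qbar) * P.b * P.c) ^ (2 * P.p) := by
    simp only [crv, freyA₂, freyA₄, WeierstrassCurve.Δ, WeierstrassCurve.b₂, WeierstrassCurve.b₄,
      WeierstrassCurve.b₆, WeierstrassCurve.b₈]
    rw [pow_mul', mul_pow, mul_pow, ← qbar_flt P]
    ring
  intro h0
  rw [h0, mul_zero] at h
  exact pow_ne_zero _ (by exact_mod_cast P.habc0) h.symm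

theorem freyD_eq : (1 : Qbar) ^ 2 + 4 * freyA₂ P = (P.b : Qbar) ^ P.p - (P.a : Qbar) ^ P.p := by
  simp only [freyA₂]; ring

theorem int_prime_not_dvd_of_gcd {x y : ℤ} (h : gcd x y = 1) {q : ℕ} (hq : q.Prime)
    (hx : (q : ℤ) ∣ x) : ¬ (q : ℤ) ∣ y := fun hy => by
  have := dvd_gcd hx hy
  rw [h] at this
  exact hq.ne_one (Nat.dvd_one.1 (by exact_mod_cast this))

variable {A : ValuationSubring Qbar} {q : ℕ}

theorem val_ofNat_two_pow (hA : A.LiesOverPrime q) (hq : q.Prime) (hq2 : q ≠ 2) (n : ℕ) :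
    A.valuation ((2 : Qbar) ^ n) = 1 := by
  have h2 : A.valuation ((2 : ℤ) : Qbar) = 1 := val_intCast_eq_one hA hq fun hd =>
    hq2 ((Nat.prime_dvd_prime_iff_eq hq Nat.prime_two).1 (by exact_mod_cast hd))
  rw [Int.cast_ofNat] at h2
  rw [map_pow, h2, one_pow]

theorem val_four (hA : A.LiesOverPrime q) (hq : q.Prime) (hq2 : q ≠ 2) :
    A.valuation (4 : Qbar) = 1 := by
  rw [show (4 : Qbar) = 2 ^ 2 by norm_num, val_ofNat_two_pow hA hq hq2]

theorem val_sixteen (hA : A.LiesOverPrime q) (hq : q.Prime) (hq2 : q ≠ 2) :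
    A.valuation (16 : Qbar) = 1 := by
  rw [show (16 : Qbar) = 2 ^ 4 by norm_num, val_ofNat_two_pow hA hq hq2]

/-- The given model at an odd place. -/
theorem intCrv_odd (hA : A.LiesOverPrime q) (hq : q.Prime) (hq2 : q ≠ 2) :
    IntCrv A.valuation 1 (freyA₂ P) (freyA₄ P) := by
  refine ⟨(map_one _).le, ?_, ?_⟩
  · rw [freyA₂, map_div₀, val_four hA hq hq2, div_one]
    exact Valuation.map_sub_le _ (Valuation.map_sub_le _
      (by rw [map_pow]; exact pow_le_one' (val_intCast_le_one A _) _) (map_one _).le)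
      (by rw [map_pow]; exact pow_le_one' (val_intCast_le_one A _) _)
  · rw [freyA₄, map_div₀, val_sixteen hA hq hq2, div_one, map_mul, Valuation.map_neg, map_pow,
      map_pow]
    exact mul_le_one' (pow_le_one' (val_intCast_le_one A _) _)
      (pow_le_one' (val_intCast_le_one A _) _)

theorem good_or_node_of_not_dvd_c (hA : A.LiesOverPrime q) (hq : q.Prime) (hq2 : q ≠ 2)
    (hc : ¬ (q : ℤ) ∣ P.c) :
    GoodCrv A.valuation 1 (freyA₂ P) (freyA₄ P) ∨ NodeCrv A.valuation 1 (freyA₂ P) (freyA₄ P) := by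
  have hqi := Nat.prime_iff_prime_int.1 hq
  have hp0 := P.hp0
  have hva : A.valuation (freyA₄ P) =
      A.valuation (P.a : Qbar) ^ P.p * A.valuation (P.b : Qbar) ^ P.p := by
    rw [freyA₄, map_div₀, val_sixteen hA hq hq2, div_one, map_mul, Valuation.map_neg, map_pow,
      map_pow]
  by_cases ha : (q : ℤ) ∣ P.a
  · refine Or.inr ⟨?_, ?_⟩
    · rw [hva]
      exact gamma_mul_lt_one' (pow_lt_one₀ zero_le (val_intCast_lt_one hA hq ha) hp0)
        (pow_le_one' (val_intCast_le_one A _) _)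
    · rw [freyD_eq, Valuation.map_sub_eq_of_lt_left, map_pow,
        val_intCast_eq_one hA hq (int_prime_not_dvd_of_gcd P.hgcdab hq ha), one_pow]
      rw [map_pow, map_pow,
        val_intCast_eq_one hA hq (int_prime_not_dvd_of_gcd P.hgcdab hq ha), one_pow]
      exact pow_lt_one₀ zero_le (val_intCast_lt_one hA hq ha) hp0
  · by_cases hb : (q : ℤ) ∣ P.b
    · refine Or.inr ⟨?_, ?_⟩
      · rw [hva]
        exact gamma_mul_lt_one (pow_le_one' (val_intCast_le_one A _) _)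
          (pow_lt_one₀ zero_le (val_intCast_lt_one hA hq hb) hp0)
      · rw [freyD_eq, Valuation.map_sub_eq_of_lt_right, map_pow, val_intCast_eq_one hA hq ha,
          one_pow]
        rw [map_pow, map_pow, val_intCast_eq_one hA hq ha, one_pow]
        exact pow_lt_one₀ zero_le (val_intCast_lt_one hA hq hb) hp0
    · refine Or.inl ⟨?_, ?_⟩
      · rw [hva, val_intCast_eq_one hA hq ha, val_intCast_eq_one hA hq hb, one_pow, one_mul]
      · rw [show ((1 : Qbar) ^ 2 + 4 * freyA₂ P) ^ 2 - 64 * freyA₄ P =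
            ((P.c : Qbar) ^ P.p) ^ 2 by
          rw [freyD_eq, ← qbar_flt, freyA₄]; ring,
          map_pow, map_pow, val_intCast_eq_one hA hq hc, one_pow, one_pow]

/-- The hypotheses on the group cut out by a Galois stable line. -/
structure StableGroup (G : AddSubgroup (crv 1 (freyA₂ P) (freyA₄ P)).Point) : Prop where
  torsion : ∀ Q ∈ G, P.p • Q = 0
  nontrivial : ∃ Q ∈ G, Q ≠ 0
  finite : (G : Set (crv 1 (freyA₂ P) (freyA₄ P)).Point).Finite
  stable : ∀ τ : GalQ, ∃ j, ActsAs τ G j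

variable {P} {G : AddSubgroup (crv 1 (freyA₂ P) (freyA₄ P)).Point}

theorem apply_intCast_div (τ : GalQ) (n : ℤ) (m : ℕ) : τ ((n : Qbar) / (m : Qbar)) = n / m := by
  rw [map_div₀, map_intCast, map_natCast]

/-- At an odd place without kernel points, inertia fixes the line. -/
theorem natCast_eq_one_odd (hG : StableGroup P G) (hA : A.LiesOverPrime q) (hq : q.Prime)
    (hq2 : q ≠ 2) {σ : GalQ} (hσ : σ ∈ A.inertiaSubgroupIn ℚ) {k : ℕ} (hk : ActsAs σ G k)
    (hno : ∀ (x y : Qbar) (h : (crv 1 (freyA₂ P) (freyA₄ P)).Nonsingular x y),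
      Point.some x y h ∈ G → A.valuation x ≤ 1) :
    (k : ZMod P.p) = 1 := by
  have hp2 : P.p ≠ 2 := by have := P.hp5; omega
  by_cases hc : (q : ℤ) ∣ P.c
  · set r : Qbar := (P.a : Qbar) ^ P.p / 4 with hr
    set t : Qbar := -((P.a : Qbar) ^ P.p) / 8 with ht
    set b₂ : Qbar := ((P.b : Qbar) ^ P.p + 2 * (P.a : Qbar) ^ P.p - 1) / 4 with hb₂
    set b₄ : Qbar := (P.a : Qbar) ^ P.p * (P.c : Qbar) ^ P.p / 16 with hb₄
    have hW : (VariableChange.mk 1 r 0 t : VariableChange Qbar) • (crv 1 (freyA₂ P) (freyA₄ P)) =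
        crv 1 b₂ b₄ := by
      have hflt := qbar_flt P
      ext <;>
        simp only [crv, variableChange_a₁, variableChange_a₂, variableChange_a₃, variableChange_a₄,
          variableChange_a₆, inv_one, Units.val_one, hr, ht, hb₂, hb₄, freyA₂, freyA₄] <;>
        (try rw [← hflt]) <;> ring
    obtain ⟨G', hpG', hne', hsome, hact⟩ :=
      exists_translate hW (freyCrv_Δ_ne_zero P) G hG.torsion hG.nontrivial
    have hv8 : A.valuation (8 : Qbar) = 1 := by
      rw [show (8 : Qbar) = 2 ^ 3 by norm_num, val_ofNat_two_pow hA hq hq2]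
    have hrle : A.valuation r ≤ 1 := by
      rw [hr, map_div₀, val_four hA hq hq2, div_one, map_pow]
      exact pow_le_one' (val_intCast_le_one A _) _
    have hI' : IntCrv A.valuation 1 b₂ b₄ := by
      refine ⟨(map_one _).le, ?_, ?_⟩
      · rw [hb₂, map_div₀, val_four hA hq hq2, div_one]
        refine Valuation.map_sub_le _ (Valuation.map_add_le _ ?_ ?_) (map_one _).le
        · rw [map_pow]; exact pow_le_one' (val_intCast_le_one A _) _
        · rw [map_mul, map_pow]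
          exact mul_le_one' (val_ofNat_le_one _ 2) (pow_le_one' (val_intCast_le_one A _) _)
      · rw [hb₄, map_div₀, val_sixteen hA hq hq2, div_one, map_mul, map_pow, map_pow]
        exact mul_le_one' (pow_le_one' (val_intCast_le_one A _) _)
          (pow_le_one' (val_intCast_le_one A _) _)
    have ha : ¬ (q : ℤ) ∣ P.a := fun ha => int_prime_not_dvd_of_gcd P.hgcdac hq ha hc
    have hC : A.valuation ((P.c : Qbar) ^ P.p) < 1 := by
      rw [map_pow]; exact pow_lt_one₀ zero_le (val_intCast_lt_one hA hq hc) P.hp0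
    have hN' : NodeCrv A.valuation 1 b₂ b₄ := by
      refine ⟨?_, ?_⟩
      · rw [hb₄, map_div₀, val_sixteen hA hq hq2, div_one, map_mul]
        exact gamma_mul_lt_one (by rw [map_pow]; exact pow_le_one' (val_intCast_le_one A _) _) hC
      · rw [show (1 : Qbar) ^ 2 + 4 * b₂ = (P.a : Qbar) ^ P.p + (P.c : Qbar) ^ P.p by
          rw [hb₂, ← qbar_flt]; ring,
          Valuation.map_add_eq_of_lt_left, map_pow, val_intCast_eq_one hA hq ha, one_pow]
        rw [map_pow A.valuation (P.a : Qbar), val_intCast_eq_one hA hq ha, one_pow]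
        exact hC
    have hfix : ∀ (z : ℤ) (m : ℕ), σ ((z : Qbar) / m) = z / m := apply_intCast_div σ
    refine natCast_eq_one_of_no_kernel P.pp hp2 G' hpG' hne' hI' (Or.inr hN') hσ
      (hact σ k (map_one σ) ?_ ?_ ?_ ?_ hk) fun x y h hQ => ?_
    · rw [hb₂]; simp [map_ofNat]
    · rw [hb₄]; simp [map_ofNat]
    · rw [hr]; simp [map_ofNat]
    · rw [ht]; simp [map_ofNat]
    · obtain ⟨h', hQ'⟩ := hsome x y h hQ
      rw [show x = (x + r) - r by ring]
      exact Valuation.map_sub_le _ (hno _ _ h' hQ') hrle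
  · exact natCast_eq_one_of_no_kernel P.pp hp2 G hG.torsion hG.nontrivial (intCrv_odd P hA hq hq2)
      (good_or_node_of_not_dvd_c P hA hq hq2 hc) hσ hk hno

/-- The Frey model at `2`. -/
theorem intCrv_two (hA : A.LiesOverPrime 2) :
    IntCrv A.valuation 1 (freyA₂ P) (freyA₄ P) ∧ NodeCrv A.valuation 1 (freyA₂ P) (freyA₄ P) := by
  have hb2 : (2 : ℤ) ∣ P.b := (ZMod.intCast_zmod_eq_zero_iff_dvd P.b 2).1 P.hb2
  obtain ⟨c, hc⟩ := hb2
  have hp5 := P.hp5
  obtain ⟨t, ht⟩ := P.hp_odd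
  have h4 : (4 : ℤ) ∣ P.b ^ P.p - 1 - P.a ^ P.p := by
    refine (ZMod.intCast_zmod_eq_zero_iff_dvd _ 4).1 ?_
    push_cast
    have h2 : (2 : ZMod 4) ^ P.p = 0 := pow_eq_zero_of_le (by omega) (show (2 : ZMod 4) ^ 2 = 0 by decide)
    rw [P.ha4, hc, ht, pow_succ (3 : ZMod 4), pow_mul, show (3 : ZMod 4) ^ 2 = 1 by decide,
      one_pow, ← ht]
    push_cast
    rw [mul_pow, h2, zero_mul]
    decide
  obtain ⟨m₂, hm₂⟩ := h4
  obtain ⟨m₄, hm₄⟩ : (32 : ℤ) ∣ P.a ^ P.p * P.b ^ P.p := by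
    refine dvd_mul_of_dvd_right ?_ _
    rw [hc, mul_pow]
    exact dvd_mul_of_dvd_left (pow_dvd_pow 2 hp5) _
  have hA₂ : freyA₂ P = ((m₂ : ℤ) : Qbar) := by
    have := congrArg (Int.cast : ℤ → Qbar) hm₂
    push_cast at this
    rw [freyA₂, this]; ring
  have hA₄ : freyA₄ P = ((-(2 * m₄) : ℤ) : Qbar) := by
    have := congrArg (Int.cast : ℤ → Qbar) hm₄
    push_cast at this
    rw [freyA₄, neg_mul, this]; push_cast; ring
  refine ⟨⟨(map_one _).le, hA₂ ▸ val_intCast_le_one A _, hA₄ ▸ val_intCast_le_one A _⟩,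
    hA₄ ▸ val_intCast_lt_one hA Nat.prime_two ⟨-m₄, by push_cast; ring⟩, ?_⟩
  rw [one_pow, hA₂, show (1 : Qbar) + 4 * (m₂ : Qbar) = ((1 + 4 * m₂ : ℤ) : Qbar) by push_cast; ring]
  exact val_intCast_eq_one hA Nat.prime_two (by omega)

theorem exists_val_intCast_eq_pow (hA : A.LiesOverPrime 2) {z : ℤ} (hz : z ≠ 0) :
    ∃ i : ℕ, A.valuation (z : Qbar) = A.valuation (2 : Qbar) ^ i := by
  obtain ⟨i, m, hm, he⟩ :=
    Nat.exists_eq_pow_mul_and_not_dvd (Int.natAbs_ne_zero.2 hz) 2 (by norm_num)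
  refine ⟨i, ?_⟩
  have hnat : A.valuation ((z.natAbs : ℤ) : Qbar) = A.valuation (2 : Qbar) ^ i := by
    rw [Int.cast_natCast, he, Nat.cast_mul, Nat.cast_pow, Nat.cast_ofNat, map_mul, map_pow,
      ← Int.cast_natCast m, val_intCast_eq_one hA Nat.prime_two (by exact_mod_cast hm), mul_one]
  rcases Int.natAbs_eq z with h | h <;> rw [h]
  · exact hnat
  · rw [Int.cast_neg, Valuation.map_neg]; exact hnat

/-- The Frey curve has no rational point of order `p`. -/
theorem no_rational_point (hG : StableGroup P G) (hrat : ∀ τ : GalQ, ActsAs τ G 1) : False := by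
  obtain ⟨A, hA⟩ := exists_liesOverPrime (L := Qbar) Nat.prime_two
  obtain ⟨hI, hN⟩ := intCrv_two (P := P) hA
  have hp5 := P.hp5
  obtain ⟨r, hr0, hr⟩ := rational_component_two P.pp (by omega) G hG.torsion hG.nontrivial
    (by omega) hG.finite hA hI hN (map_one _) hrat
  obtain ⟨i, hi⟩ := exists_val_intCast_eq_pow hA (Rat.num_ne_zero.2 hr0)
  obtain ⟨j, hj⟩ := exists_val_intCast_eq_pow hA
    (show (r.den : ℤ) ≠ 0 by exact_mod_cast r.den_nz)
  obtain ⟨k, hk⟩ := exists_val_intCast_eq_pow hA P.hb0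
  rw [Int.cast_natCast] at hj
  have ha : A.valuation (P.a : Qbar) = 1 := val_intCast_eq_one hA Nat.prime_two fun h =>
    int_prime_not_dvd_of_gcd P.hgcdab Nat.prime_two h
      ((ZMod.intCast_zmod_eq_zero_iff_dvd P.b 2).1 P.hb2)
  set T := A.valuation (2 : Qbar) with hT
  have hT1 : T < 1 := by simpa using A.mem_nonunits_iff.1 hA
  have hT0 : 0 < T := zero_lt_iff.2 (by rw [hT]; simp)
  have h16 : A.valuation (16 : Qbar) = T ^ 4 := by
    rw [show (16 : Qbar) = 2 ^ 4 by norm_num, map_pow]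
  have e1 : A.valuation (r : Qbar) * T ^ j = T ^ i := by
    rw [Rat.cast_def, map_div₀, hi, hj, div_mul_cancel₀ _ (pow_ne_zero _ hT0.ne')]
  have e2 : A.valuation (freyA₄ P) * T ^ 4 = T ^ (k * P.p) := by
    rw [freyA₄, map_div₀, h16, div_mul_cancel₀ _ (pow_ne_zero _ hT0.ne'), map_mul,
      Valuation.map_neg, map_pow, map_pow, ha, hk, one_pow, one_mul, ← pow_mul]
  have e3 : T ^ (i * P.p + 8) = T ^ (k * P.p * 2 + j * P.p) := by
    calc T ^ (i * P.p + 8) = (A.valuation (r : Qbar) * T ^ j) ^ P.p * (T ^ 4) ^ 2 := by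
          rw [e1, ← pow_mul, ← pow_mul, ← pow_add]
      _ = (A.valuation (freyA₄ P) * T ^ 4) ^ 2 * (T ^ j) ^ P.p := by
          rw [mul_pow, hr, mul_pow, mul_right_comm]
      _ = T ^ (k * P.p * 2 + j * P.p) := by rw [e2, ← pow_mul, ← pow_mul, ← pow_add]
  have hexp := (pow_right_strictAnti₀ hT0 hT1).injective e3
  have h8 : P.p ∣ 2 ^ 3 := by
    refine (Nat.dvd_add_right (dvd_mul_left P.p i)).1 ⟨2 * k + j, ?_⟩
    rw [show (2 : ℕ) ^ 3 = 8 by norm_num, hexp]; ring
  exact absurd ((Nat.prime_dvd_prime_iff_eq P.pp Nat.prime_two).1 (P.pp.dvd_of_dvd_pow h8))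
    (by omega)

end Fermat.Agent.S13
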