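import Fermat.Agent.S13.Formal
import Fermat.Agent.S13.Tame
import Fermat.Agent.S13.Components
import Fermat.Agent.Galois.Decomposition
import Fermat.Agent.ECTorsion.MulFormula
import Fermat.Agent.LR.ChangeVar
import Mathlib

/-!
# A Galois stable group of prime order on `y² + a₁xy = x³ + a₂x² + a₄x` at one place
-/

set_option autoImplicit false

noncomputable section

namespace Fermat.Agent.S13

open WeierstrassCurve WeierstrassCurve.Affine Fermat.Agent.Galois

/-- `σ` acts on the coordinates of the points of `G` as multiplication by `k`. -/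
def ActsAs (σ : GalQ) {W : WeierstrassCurve.Affine Qbar} (G : AddSubgroup W.Point) (k : ℕ) :
    Prop :=
  ∀ (x y : Qbar) (h : W.Nonsingular x y), Point.some x y h ∈ G →
    ∃ h' : W.Nonsingular (σ x) (σ y), Point.some (σ x) (σ y) h' = k • Point.some x y h

variable {A : ValuationSubring Qbar} {q p : ℕ} {σ : GalQ} {a₁ a₂ a₄ : Qbar}

/-- A decomposition element preserves the valuation. -/
theorem valuation_apply (hσ : σ ∈ A.decompositionSubgroup ℚ) (x : Qbar) :
    A.valuation (σ x) = A.valuation x := by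
  rcases eq_or_ne x 0 with rfl | hx
  · simp
  have hσ0 : ∀ {y : Qbar}, y ≠ 0 → σ y ≠ 0 := fun hy =>
    (map_ne_zero_iff _ σ.injective).2 hy
  have hmono : ∀ a b : Qbar, b ≠ 0 → A.valuation a < A.valuation b →
      A.valuation (σ a) < A.valuation (σ b) := fun a b hb h => by
    rw [← div_lt_one₀ (zero_lt_iff.2 (Valuation.ne_zero_iff _ |>.2 hb)), ← map_div₀,
      ← A.mem_nonunits_iff] at h
    have h' := (decomposition_apply_mem_nonunits_iff hσ).2 h
    rw [A.mem_nonunits_iff, map_div₀, map_div₀,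
      div_lt_one₀ (zero_lt_iff.2 (Valuation.ne_zero_iff _ |>.2 (hσ0 hb)))] at h'
    exact h'
  have horb : (Set.range fun i : ℕ => (⇑σ)^[i] x).Finite := by
    obtain ⟨f, hf0, hfx⟩ := (Algebra.IsAlgebraic.isAlgebraic (R := ℚ) x)
    refine Set.Finite.subset (f.rootSet Qbar).toFinite ?_
    rintro _ ⟨i, rfl⟩
    rw [Polynomial.mem_rootSet]
    refine ⟨hf0, ?_⟩
    induction i with
    | zero => exact hfx
    | succ i ih =>
      simp only [Function.iterate_succ_apply'] at ih ⊢
      rw [Polynomial.aeval_algHom_apply, ih, map_zero]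
  have hne : ∀ i : ℕ, (⇑σ)^[i] x ≠ 0 := fun i => by
    induction i with
    | zero => exact hx
    | succ i ih => rw [Function.iterate_succ_apply']; exact hσ0 ih
  by_contra hvne
  rcases lt_or_gt_of_ne hvne with hlt | hgt
  · have hanti : StrictAnti fun i : ℕ => A.valuation ((⇑σ)^[i] x) := by
      refine strictAnti_nat_of_succ_lt fun i => ?_
      induction i with
      | zero => simpa using hlt
      | succ i ih =>
        simp only [Function.iterate_succ_apply'] at ih ⊢
        exact hmono _ _ (hne i) ih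
    exact Set.infinite_range_of_injective
      (fun i j h => hanti.injective (congrArg A.valuation h)) horb
  · have hmon : StrictMono fun i : ℕ => A.valuation ((⇑σ)^[i] x) := by
      refine strictMono_nat_of_lt_succ fun i => ?_
      induction i with
      | zero => simpa using hgt
      | succ i ih =>
        simp only [Function.iterate_succ_apply'] at ih ⊢
        exact hmono _ _ (hσ0 (hne i)) ih
    exact Set.infinite_range_of_injective
      (fun i j h => hmon.injective (congrArg A.valuation h)) horb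

theorem val_inertia_sub_lt (hσ : σ ∈ A.inertiaSubgroupIn ℚ) (x : Qbar)
    (hx : A.valuation x ≤ 1) : A.valuation (σ x - x) < 1 :=
  inertia_sub_mem_nonunits hσ ((A.valuation_le_one_iff x).1 hx)

theorem val_intCast_le_one (A : ValuationSubring Qbar) (n : ℤ) :
    A.valuation (n : Qbar) ≤ 1 := (A.valuation_le_one_iff _).2 (intCast_mem A n)

theorem val_intCast_eq_one (hA : A.LiesOverPrime q) (hq : q.Prime) {n : ℤ} (hn : ¬ (q : ℤ) ∣ n) :
    A.valuation (n : Qbar) = 1 :=
  le_antisymm (val_intCast_le_one A n)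
    (le_of_not_gt fun h => hn ((place_intCast_mem_nonunits_iff hA hq n).1 h))

theorem val_intCast_lt_one (hA : A.LiesOverPrime q) (hq : q.Prime) {n : ℤ} (hn : (q : ℤ) ∣ n) :
    A.valuation (n : Qbar) < 1 := (place_intCast_mem_nonunits_iff hA hq n).2 hn

/-- A rational number that is not integral at a place over `q` has valuation at least `1 / v q`. -/
theorem one_le_val_mul_of_one_lt (hA : A.LiesOverPrime q) (hq : q.Prime) (r : ℚ)
    (hr : 1 < A.valuation (r : Qbar)) : 1 ≤ A.valuation (r : Qbar) * A.valuation (q : Qbar) := by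
  have hden : q ∣ r.den := by
    by_contra h
    exact absurd ((A.valuation_le_one_iff _).2 ((place_ratCast_mem_iff hA hq r).2 h)) (not_le.2 hr)
  have hnum : ¬ (q : ℤ) ∣ r.num := fun hn => by
    have := Nat.dvd_gcd (Int.natCast_dvd.mp hn) hden
    rw [r.reduced.gcd_eq_one] at this
    exact hq.ne_one (Nat.dvd_one.mp this)
  obtain ⟨m, hm⟩ := hden
  have hm0 : m ≠ 0 := fun h => r.den_nz (by rw [hm, h, mul_zero])
  have hden0 : ((r.den : ℕ) : Qbar) ≠ 0 := Nat.cast_ne_zero.2 r.den_nz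
  have hqm : A.valuation (r : Qbar) * (A.valuation (q : Qbar) * A.valuation (m : Qbar)) = 1 := by
    rw [← map_mul, ← map_mul, ← Nat.cast_mul, ← hm, Rat.cast_def, div_mul_cancel₀ _ hden0]
    exact val_intCast_eq_one hA hq hnum
  calc (1 : A.ValueGroup) = A.valuation (r : Qbar) * (A.valuation (q : Qbar) * A.valuation (m : Qbar)) :=
        hqm.symm
    _ ≤ A.valuation (r : Qbar) * A.valuation (q : Qbar) :=
      mul_le_mul' le_rfl (mul_le_of_le_one_right' (val_natCast_le_one _ m))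

/-- Coordinates fixed by the whole Galois group are rational. -/
theorem exists_ratCast_of_forall_fixed {x : Qbar} (hx : ∀ τ : GalQ, τ x = x) :
    ∃ r : ℚ, (r : Qbar) = x := by
  obtain ⟨r, hr⟩ := (InfiniteGalois.mem_range_algebraMap_iff_fixed x).2 hx
  exact ⟨r, by rw [← hr, eq_ratCast]⟩

section Group

variable (hp : p.Prime) (hp2 : p ≠ 2) (G : AddSubgroup (crv a₁ a₂ a₄).Point)
  (hpG : ∀ P ∈ G, p • P = 0) (hne : ∃ P ∈ G, P ≠ 0)

include hp hpG in
theorem addOrderOf_mem {P : (crv a₁ a₂ a₄).Point} (hP : P ∈ G) (h0 : P ≠ 0) : addOrderOf P = p := by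
  have := Fact.mk hp
  exact addOrderOf_eq_prime (hpG P hP) h0

include hp hp2 hpG in
theorem two_nsmul_ne_zero_mem {P : (crv a₁ a₂ a₄).Point} (hP : P ∈ G) (h0 : P ≠ 0) :
    (2 : ℕ) • P ≠ 0 := fun h2 => by
  rw [← addOrderOf_dvd_iff_nsmul_eq_zero, addOrderOf_mem hp G hpG hP h0] at h2
  exact hp2 ((Nat.prime_dvd_prime_iff_eq hp Nat.prime_two).1 h2)

include hp hpG in
theorem natCast_eq_one_of_fixed {k : ℕ} (hk : ActsAs σ G k) {x y : Qbar}
    {h : (crv a₁ a₂ a₄).Nonsingular x y} (hP : Point.some x y h ∈ G) (hx : σ x = x) (hy : σ y = y) :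
    (k : ZMod p) = 1 := by
  obtain ⟨h', he⟩ := hk x y h hP
  have hself : k • Point.some x y h = (1 : ℕ) • Point.some x y h := by
    rw [← he, one_nsmul, Point.some.injEq]; exact ⟨hx, hy⟩
  rw [nsmul_eq_nsmul_iff_modEq, addOrderOf_mem hp G hpG hP (Point.some_ne_zero h)] at hself
  rw [← Nat.cast_one, ZMod.natCast_eq_natCast_iff]
  exact hself

include hp hp2 hpG hne in
/-- Without kernel points, inertia fixes the group. -/
theorem natCast_eq_one_of_no_kernel (hI : IntCrv A.valuation a₁ a₂ a₄)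
    (hred : GoodCrv A.valuation a₁ a₂ a₄ ∨ NodeCrv A.valuation a₁ a₂ a₄)
    (hσ : σ ∈ A.inertiaSubgroupIn ℚ) {k : ℕ} (hk : ActsAs σ G k)
    (hno : ∀ (x y : Qbar) (h : (crv a₁ a₂ a₄).Nonsingular x y), Point.some x y h ∈ G →
      A.valuation x ≤ 1) :
    (k : ZMod p) = 1 := by
  obtain ⟨x, y, h, hP, hx, hy⟩ := exists_fixed_of_forall_le_one A.valuation hI hred
    (σ : Qbar →+* Qbar) (valuation_apply (inertia_le_decomposition A hσ))
    (val_inertia_sub_lt hσ) G (fun P hP h0 => two_nsmul_ne_zero_mem hp hp2 G hpG hP h0)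
    (fun x y h hP => by
      obtain ⟨h', he⟩ := hk x y h hP
      exact ⟨h', by
        show Point.some (σ x) (σ y) h' ∈ G
        rw [he]; exact G.nsmul_mem hP k⟩) hno hne
  exact natCast_eq_one_of_fixed hp G hpG hk hP hx hy

/-- A point of `G` deepest in the kernel. -/
theorem exists_max_kernel (hfin : (G : Set (crv a₁ a₂ a₄).Point).Finite)
    (hker : ∃ (x y : Qbar) (h : (crv a₁ a₂ a₄).Nonsingular x y),
      Point.some x y h ∈ G ∧ 1 < A.valuation x) :
    ∃ (x y : Qbar) (h : (crv a₁ a₂ a₄).Nonsingular x y), Point.some x y h ∈ G ∧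
      1 < A.valuation x ∧ ∀ (x' y' : Qbar) (h' : (crv a₁ a₂ a₄).Nonsingular x' y'),
        Point.some x' y' h' ∈ G → A.valuation x' ≤ A.valuation x := by
  let f : (crv a₁ a₂ a₄).Point → A.ValueGroup := fun P =>
    match P with
    | .zero => 0
    | .some x _ _ => A.valuation x
  obtain ⟨x₀, y₀, h₀, hP₀, hx₀⟩ := hker
  obtain ⟨P, hP, hmax⟩ := hfin.exists_maximalFor f (G : Set _) ⟨_, hP₀⟩
  have hle : ∀ Q ∈ G, f Q ≤ f P := fun Q hQ => (le_total (f Q) (f P)).elim id (hmax hQ)
  cases P with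
  | zero => exact absurd (hle _ hP₀) (not_le.2 (zero_lt_one.trans hx₀))
  | @some x y h => exact ⟨x, y, h, hP, hx₀.trans_le (hle _ hP₀), fun x' y' h' hQ => hle _ hQ⟩

include hp2 hpG in
/-- At `2` there are no kernel points of odd prime order. -/
theorem no_kernel_at_two (hp : p.Prime) (hfin : (G : Set (crv a₁ a₂ a₄).Point).Finite)
    (hA : A.LiesOverPrime 2) (hI : IntCrv A.valuation a₁ a₂ a₄)
    (x y : Qbar) (h : (crv a₁ a₂ a₄).Nonsingular x y) (hP : Point.some x y h ∈ G) :
    A.valuation x ≤ 1 := by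
  by_contra hgt
  obtain ⟨x, y, h, hP, hx, hmax⟩ := exists_max_kernel G hfin ⟨x, y, h, hP, not_le.1 hgt⟩
  have hv2 : A.valuation (2 : Qbar) < 1 := by simpa using A.mem_nonunits_iff.1 hA
  obtain ⟨x₂, y₂, h₂, he, hlt⟩ := crv_double_kernel_two A.valuation hI hv2 h
    (two_nsmul_ne_zero_mem hp hp2 G hpG hP (Point.some_ne_zero h)) hx
  exact absurd (hmax x₂ y₂ h₂ (he ▸ G.nsmul_mem hP 2)) (not_le.2 hlt)

include hp hp2 hpG in
/-- Kernel points exist only at `p`, and there inertia acts on them as on `μ_p`. -/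
theorem kernel_cyclotomic (hfin : (G : Set (crv a₁ a₂ a₄).Point).Finite)
    (hA : A.LiesOverPrime q) (hq : q.Prime) (hq2 : q ≠ 2) (hI : IntCrv A.valuation a₁ a₂ a₄)
    (hgal : ∀ τ : GalQ, ∃ j, ActsAs τ G j)
    (hker : ∃ (x y : Qbar) (h : (crv a₁ a₂ a₄).Nonsingular x y),
      Point.some x y h ∈ G ∧ 1 < A.valuation x) :
    q = p ∧ ∀ σ ∈ A.inertiaSubgroupIn ℚ, ∀ k c : ℕ, ActsAs σ G k →
      ∀ ζ : Qbar, IsPrimitiveRoot ζ p → σ ζ = ζ ^ c → (k : ZMod p) = c := by
  classical
  obtain ⟨x, y, h, hP, hx, hmax⟩ := exists_max_kernel G hfin hker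
  have hv2 : A.valuation (2 : Qbar) = 1 := by
    have := val_intCast_eq_one hA hq (n := 2) (fun hd =>
      hq2 ((Nat.prime_dvd_prime_iff_eq hq Nat.prime_two).1 (by exact_mod_cast hd)))
    simpa using this
  obtain ⟨hvp, hmul⟩ := crv_kernel_multiples A.valuation hI hv2 h hx hp hp2 (hpG _ hP)
    fun k x' y' h' he => hmax x' y' h' (he ▸ G.nsmul_mem hP k)
  obtain ⟨hy, hδ, hX, -, -⟩ := crv_kernel_coords A.valuation hI h.1 hx
  have hqp : q = p := by
    have := (place_intCast_mem_nonunits_iff hA hq (p : ℤ)).1 (by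
      rw [A.mem_nonunits_iff, Int.cast_natCast]; exact hvp)
    exact (Nat.prime_dvd_prime_iff_eq hq hp).1 (by exact_mod_cast this)
  refine ⟨hqp, ?_⟩
  subst q
  -- abscissae of the multiples
  set xc : ℕ → Qbar := fun j =>
    match j • Point.some x y h with
    | .zero => 0
    | .some a _ _ => a with hxc
  have hxj : ∀ j, 1 ≤ j → j < p → ∃ (y' : Qbar) (h' : (crv a₁ a₂ a₄).Nonsingular (xc j) y'),
      j • Point.some x y h = Point.some (xc j) y' h' ∧ A.valuation (xc j) = A.valuation x := by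
    intro j hj1 hj2
    obtain ⟨x', y', h', he, hv, -, -⟩ := hmul j hj1 hj2
    have hj : xc j = x' := by simp only [hxc, he]
    subst hj
    exact ⟨y', h', he, hv⟩
  have hord := addOrderOf_mem hp G hpG hP (Point.some_ne_zero h)
  set m := (p - 1) / 2 with hm
  have hpodd : 2 * m + 1 = p := by
    obtain ⟨t, ht⟩ := hp.odd_of_ne_two hp2
    omega
  have hneg : ∀ j, 1 ≤ j → j < p → xc (p - j) = xc j := by
    intro j hj1 hj2
    obtain ⟨y', h', he, -⟩ := hxj j hj1 hj2
    obtain ⟨y'', h'', he', -⟩ := hxj (p - j) (by omega) (by omega)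
    have hs : (p - j) • Point.some x y h + j • Point.some x y h = 0 := by
      rw [← add_nsmul, Nat.sub_add_cancel hj2.le]; exact hpG _ hP
    rw [he, he', add_eq_zero_iff_eq_neg, Point.neg_some, Point.some.injEq] at hs
    exact hs.1
  have hinj : Set.InjOn xc (Finset.Icc 1 m) := by
    intro i hi j hj hij
    simp only [Finset.coe_Icc, Set.mem_Icc] at hi hj
    obtain ⟨yi, hi', hei, -⟩ := hxj i hi.1 (by omega)
    obtain ⟨yj, hj', hej, -⟩ := hxj j hj.1 (by omega)
    rcases Point.eq_or_eq_neg_of_xRep_eq_xRep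
      (P := Point.some _ _ hi') (Q := Point.some _ _ hj') (by simp [hij]) with heq | heq
    · rw [← hei, ← hej, nsmul_eq_nsmul_iff_modEq, hord] at heq
      exact heq.eq_of_lt_of_lt (by omega) (by omega)
    · rw [← hei, ← hej, eq_neg_iff_add_eq_zero, ← add_nsmul,
        ← addOrderOf_dvd_iff_nsmul_eq_zero, hord] at heq
      exact absurd (Nat.le_of_dvd (by omega) heq) (by omega)
  set S := (Finset.Icc 1 m).image xc with hS
  have hScard : S.card = m := by
    rw [hS, Finset.card_image_of_injOn hinj, Nat.card_Icc]; omega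
  have hSmem : ∀ {j}, 1 ≤ j → j < p → xc j ∈ S := by
    intro j hj1 hj2
    rw [hS, Finset.mem_image]
    by_cases hjm : j ≤ m
    · exact ⟨j, Finset.mem_Icc.2 ⟨hj1, hjm⟩, rfl⟩
    · exact ⟨p - j, Finset.mem_Icc.2 ⟨by omega, by omega⟩, hneg j hj1 hj2⟩
  have hSv : ∀ r ∈ S, A.valuation r = A.valuation x := by
    intro r hr
    rw [hS, Finset.mem_image] at hr
    obtain ⟨j, hj, rfl⟩ := hr
    rw [Finset.mem_Icc] at hj
    exact (hxj j hj.1 (by omega)).choose_spec.choose_spec.2
  have hprodv : A.valuation (∏ r ∈ S, r) = A.valuation x ^ m := by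
    rw [map_prod, Finset.prod_congr rfl hSv, Finset.prod_const, hScard]
  -- the product is rational
  obtain ⟨r₀, hr₀⟩ : ∃ r : ℚ, (r : Qbar) = ∏ r ∈ S, r := by
    refine exists_ratCast_of_forall_fixed fun τ => ?_
    have hsub : S.image τ ⊆ S := by
      intro s hs
      rw [hS, Finset.image_image, Finset.mem_image] at hs
      obtain ⟨i, hi, rfl⟩ := hs
      rw [Finset.mem_Icc] at hi
      obtain ⟨yi, hi', hei, -⟩ := hxj i hi.1 (by omega)
      obtain ⟨j, hj⟩ := hgal τ
      obtain ⟨hτ, heτ⟩ := hj _ _ hi' (hei ▸ G.nsmul_mem hP i)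
      rw [← hei, ← mul_nsmul' , ← mod_addOrderOf_nsmul, hord] at heτ
      have hlt : (j * i) % p < p := Nat.mod_lt _ hp.pos
      have h1 : 1 ≤ (j * i) % p := by
        refine Nat.one_le_iff_ne_zero.2 fun h0 => ?_
        rw [h0, zero_nsmul] at heτ
        exact Point.some_ne_zero _ heτ
      obtain ⟨yn, hn', hen, -⟩ := hxj _ h1 hlt
      rw [hen, Point.some.injEq] at heτ
      show τ (xc i) ∈ S
      rw [heτ.1]
      exact hSmem h1 hlt
    have heq : S.image τ = S := Finset.eq_of_subset_of_card_le hsub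
      (by rw [Finset.card_image_of_injective _ τ.injective])
    calc τ (∏ r ∈ S, r) = ∏ r ∈ S, τ r := map_prod τ _ _
      _ = ∏ r ∈ S.image τ, r :=
          (Finset.prod_image (f := fun r => r) fun a _ b _ hab => τ.injective hab).symm
      _ = ∏ r ∈ S, r := by rw [heq]
  -- the Newton polygon bound
  have hbound : A.valuation (p : Qbar) * A.valuation x ^ m ≤ 1 := by
    let W₀ : WeierstrassCurve A := crv ⟨a₁, (A.valuation_le_one_iff _).1 hI.a₁_le⟩
      ⟨a₂, (A.valuation_le_one_iff _).1 hI.a₂_le⟩ ⟨a₄, (A.valuation_le_one_iff _).1 hI.a₄_le⟩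
    have hW : (W₀.map A.subtype).toAffine = crv a₁ a₂ a₄ := by
      ext <;> simp [W₀, crv, WeierstrassCurve.map]
    have hcoef : ∀ i, A.valuation (((crv a₁ a₂ a₄).preΨ' p).coeff i) ≤ 1 := by
      intro i
      rw [← hW, WeierstrassCurve.map_preΨ', Polynomial.coeff_map, A.valuation_le_one_iff]
      exact SetLike.coe_mem _
    have hroot : ∀ r ∈ S, ((crv a₁ a₂ a₄).preΨ' p).IsRoot r := by
      intro r hr
      rw [hS, Finset.mem_image] at hr
      obtain ⟨j, hj, rfl⟩ := hr
      rw [Finset.mem_Icc] at hj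
      obtain ⟨yj, hj', hej, -⟩ := hxj j hj.1 (by omega)
      have := (Fermat.Agent.ECTorsion.zsmul_some_eq_zero_iff_ΨSq hj' (p : ℤ)).1 (by
        rw [natCast_zsmul, ← hej]; exact hpG _ (G.nsmul_mem hP j))
      rw [WeierstrassCurve.ΨSq_ofNat, if_neg (Nat.not_even_iff_odd.2 (hp.odd_of_ne_two hp2)),
        mul_one, Polynomial.eval_pow] at this
      exact eq_zero_of_pow_eq_zero this
    have := val_leadingCoeff_mul_prod_le A.valuation S _ hcoef hroot
      (fun r hr => by rw [hSv r hr]; exact hx)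
    rw [← map_prod, hprodv,
      WeierstrassCurve.leadingCoeff_preΨ' _ (Nat.cast_ne_zero.2 hp.ne_zero),
      if_neg (Nat.not_even_iff_odd.2 (hp.odd_of_ne_two hp2))] at this
    exact this
  have hr1 : 1 < A.valuation (r₀ : Qbar) := by
    rw [hr₀, hprodv]; exact one_lt_pow₀ hx (by have := hp.two_le; omega)
  have hge := one_le_val_mul_of_one_lt hA hp r₀ hr1
  rw [hr₀, hprodv, mul_comm] at hge
  have hpm : A.valuation (p : Qbar) * A.valuation x ^ m = 1 := le_antisymm hbound hge
  have hz : A.valuation (-x / y) ^ (p - 1) = A.valuation (p : Qbar) := by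
    rw [neg_div, Valuation.map_neg, show p - 1 = 2 * m by omega, pow_mul]
    refine mul_right_cancel₀ (pow_ne_zero m (ne_of_gt (zero_lt_one.trans hx))) ?_
    rw [hpm, ← mul_pow, mul_comm, hX, one_pow]
  have hδ0 : 0 < A.valuation (x / y) := zero_lt_iff.2 fun h0 => by rw [h0] at hX; simp at hX
  intro σ hσ k c hk ζ hζ hc
  obtain ⟨hσP, heσ⟩ := hk x y h hP
  rw [← mod_addOrderOf_nsmul, hord] at heσ
  have hk1 : 1 ≤ k % p := by
    refine Nat.one_le_iff_ne_zero.2 fun h0 => ?_
    rw [h0, zero_nsmul] at heσ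
    exact Point.some_ne_zero _ heσ
  obtain ⟨x', y', h', he', -, -, hz'⟩ := hmul (k % p) hk1 (Nat.mod_lt _ hp.pos)
  rw [he', Point.some.injEq] at heσ
  obtain ⟨rfl, rfl⟩ := heσ
  have hlt : A.valuation ((σ : Qbar →+* Qbar) (-x / y) - ((k % p : ℕ) : Qbar) * (-x / y)) <
      A.valuation (-x / y) := by
    show A.valuation (σ (-x / y) - ((k % p : ℕ) : Qbar) * (-x / y)) < _
    rw [map_div₀, map_neg, neg_div y x, Valuation.map_neg]
    rw [neg_div y x] at hz'
    refine lt_of_le_of_lt hz' ?_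
    rw [sq]
    exact mul_lt_of_lt_one_left hδ0 hδ
  have key := val_natCast_sub_lt_one A.valuation hp hζ hvp
    (Nat.cast_ne_zero.2 hp.ne_zero) hz (σ : Qbar →+* Qbar) (val_inertia_sub_lt hσ) hlt hc
  have hdvd := (place_intCast_mem_nonunits_iff hA hp ((k % p : ℕ) - c : ℤ)).1 (by
    rw [A.mem_nonunits_iff]; push_cast; exact key)
  rw [← ZMod.natCast_mod, eq_comm, ← Int.cast_natCast, ← Int.cast_natCast (k % p),
    ZMod.intCast_eq_intCast_iff_dvd_sub]
  exact hdvd

include hp hp2 hpG hne in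
/-- Rational points of odd prime order at `2` lie off the identity component, in a component of
order `p`. -/
theorem rational_component_two (hp3 : p ≠ 3) (hfin : (G : Set (crv a₁ a₂ a₄).Point).Finite)
    (hA : A.LiesOverPrime 2) (hI : IntCrv A.valuation a₁ a₂ a₄)
    (hN : NodeCrv A.valuation a₁ a₂ a₄) (ha₁ : A.valuation a₁ = 1)
    (hrat : ∀ τ : GalQ, ActsAs τ G 1) :
    ∃ r : ℚ, r ≠ 0 ∧ A.valuation (r : Qbar) ^ p = A.valuation a₄ ^ 2 := by
  have hno := no_kernel_at_two hp2 G hpG hp hfin hA hI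
  have hv2 : A.valuation (2 : Qbar) < 1 := by simpa using A.mem_nonunits_iff.1 hA
  have hratx : ∀ (x y : Qbar) (h : (crv a₁ a₂ a₄).Nonsingular x y), Point.some x y h ∈ G →
      ∃ r : ℚ, (r : Qbar) = x := fun x y h hP => exists_ratCast_of_forall_fixed fun τ => by
    obtain ⟨h', he⟩ := hrat τ x y h hP
    rw [one_nsmul, Point.some.injEq] at he
    exact he.1
  have hunit : ∀ (x y : Qbar) (h : (crv a₁ a₂ a₄).Nonsingular x y), Point.some x y h ∈ G →
      A.valuation x = 1 → A.valuation (x - 1) < 1 := by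
    intro x y h hP hx
    obtain ⟨r, rfl⟩ := hratx x y h hP
    have hden : ¬ 2 ∣ r.den := (place_ratCast_mem_iff hA Nat.prime_two r).1
      ((A.valuation_le_one_iff _).1 hx.le)
    have hd1 : A.valuation ((r.den : ℤ) : Qbar) = 1 :=
      val_intCast_eq_one hA Nat.prime_two (by exact_mod_cast hden)
    have hnum : ¬ (2 : ℤ) ∣ r.num := fun hn => by
      have := val_intCast_lt_one hA Nat.prime_two hn
      rw [Rat.cast_def, map_div₀, ← Int.cast_natCast r.den, hd1, div_one] at hx
      exact this.ne hx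
    have hd : ((r.den : ℤ) : Qbar) ≠ 0 := Int.cast_ne_zero.2 (by exact_mod_cast r.den_nz)
    rw [Rat.cast_def, ← Int.cast_natCast r.den, div_sub_one hd, map_div₀, hd1, div_one,
      ← Int.cast_sub]
    refine val_intCast_lt_one hA Nat.prime_two ?_
    have : ¬ (2 : ℤ) ∣ (r.den : ℤ) := by exact_mod_cast hden
    omega
  have hall : ∀ (x y : Qbar) (h : (crv a₁ a₂ a₄).Nonsingular x y), Point.some x y h ∈ G →
      A.valuation x < 1 := by
    intro x y h hP
    refine lt_of_le_of_ne (hno x y h hP) fun hx => ?_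
    have hx0 : x ≠ 0 := fun h0 => by rw [h0, map_zero] at hx; exact zero_ne_one hx
    have h2ne := two_nsmul_ne_zero_mem hp hp2 G hpG hP (Point.some_ne_zero h)
    obtain ⟨x₂, y₂, h₂, he, hd, -⟩ := crv_double h h2ne
    have hP₂ : Point.some x₂ y₂ h₂ ∈ G := he ▸ G.nsmul_mem hP 2
    have hy := crv_val_y_le A.valuation hI h.1 hx.le
    have hw : A.valuation (2 * y + a₁ * x) = 1 := by
      rw [Valuation.map_add_eq_of_lt_right, map_mul, ha₁, hx, one_mul]
      rw [map_mul, map_mul, ha₁, hx, one_mul]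
      exact gamma_mul_lt_one' hv2 hy
    have hx₂ : A.valuation x₂ = 1 := by
      have := congrArg A.valuation hd
      rw [map_mul, map_pow, map_pow, hw, one_pow, mul_one,
        Valuation.map_sub_eq_of_lt_left _ (by rw [map_pow, hx, one_pow]; exact hN.1),
        map_pow, hx, one_pow, one_pow] at this
      exact this
    have hdiff : A.valuation (x₂ - x) < 1 := by
      rw [show x₂ - x = (x₂ - 1) - (x - 1) by ring]
      exact Valuation.map_sub_lt _ (hunit x₂ y₂ h₂ hP₂ hx₂) (hunit x y h hP hx)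
    have hx₂0 : x₂ ≠ 0 := fun h0 => by rw [h0, map_zero] at hx₂; exact zero_ne_one hx₂
    have hne' : x₂ ≠ x := by
      rintro rfl
      have h3 : (3 : ℕ) • Point.some x₂ y h = 0 := by
        rcases Y_eq_of_X_eq h₂.1 h.1 rfl with hy' | hy'
        · subst hy'
          rw [two_nsmul] at he
          exact absurd (add_eq_left.1 he) (Point.some_ne_zero _)
        · rw [succ_nsmul, he]; exact Point.add_of_Y_eq rfl hy'
      rw [← addOrderOf_dvd_iff_nsmul_eq_zero,
        addOrderOf_mem hp G hpG hP (Point.some_ne_zero h)] at h3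
      exact hp3 ((Nat.prime_dvd_prime_iff_eq hp Nat.prime_three).1 h3)
    obtain ⟨x₃, y₃, h₃, x₄, y₄, h₄, he₃, he₄, hprod⟩ := crv_add_mul_sub h₂ h hne' hx₂0 hx0
    have h4 : Point.some x₄ y₄ h₄ = Point.some x y h := by
      rw [← he₄, ← he, two_nsmul, add_sub_cancel_right]
    rw [Point.some.injEq] at h4
    obtain ⟨rfl, rfl⟩ := h4
    have := congrArg A.valuation hprod
    have hnum : A.valuation (x₂ * x₄ - a₄) = 1 := by
      rw [Valuation.map_sub_eq_of_lt_left _ (by rw [map_mul, hx₂, hx, one_mul]; exact hN.1),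
        map_mul, hx₂, hx, one_mul]
    rw [map_mul, map_mul, hx, mul_one, map_pow, map_pow, hnum, one_pow] at this
    have hle := hno x₃ y₃ h₃ (he₃ ▸ G.add_mem hP₂ hP)
    exact (gamma_mul_lt_one hle (pow_lt_one₀ zero_le hdiff two_ne_zero)).ne this
  have hdeep : ∀ (x y : Qbar) (h : (crv a₁ a₂ a₄).Nonsingular x y), Point.some x y h ∈ G →
      A.valuation a₄ < A.valuation x := by
    intro x y h hP
    by_contra hle
    rw [not_lt] at hle
    obtain ⟨x₂, y₂, h₂, he, hx₂⟩ := crv_double_deep A.valuation hN h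
      (two_nsmul_ne_zero_mem hp hp2 G hpG hP (Point.some_ne_zero h)) hle
    exact absurd (hall x₂ y₂ h₂ (he ▸ G.nsmul_mem hP 2)) (not_lt.2 hx₂)
  -- the point highest on the components
  let f : (crv a₁ a₂ a₄).Point → A.ValueGroup := fun P =>
    match P with
    | .zero => 0
    | .some x _ _ => A.valuation x
  obtain ⟨P₀, hP₀, hP₀0⟩ := hne
  obtain ⟨P, hP, hmax⟩ := hfin.exists_maximalFor f (G : Set _) ⟨_, hP₀⟩
  have hle : ∀ Q ∈ G, f Q ≤ f P := fun Q hQ => (le_total (f Q) (f P)).elim id (hmax hQ)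
  cases P with
  | zero =>
    cases P₀ with
    | zero => exact absurd rfl hP₀0
    | @some x₀ y₀ h₀ =>
      exact absurd (hle _ hP₀) (not_le.2 (lt_of_le_of_lt zero_le (hdeep x₀ y₀ h₀ hP₀)))
  | @some x y h =>
    obtain ⟨r, hr⟩ := hratx x y h hP
    subst hr
    refine ⟨r, fun h0 => ?_, crv_component_pow A.valuation hN h (hall _ y h hP) hp hp2 (hpG _ hP)
      fun k x' y' h' he => ⟨hdeep x' y' h' (he ▸ G.nsmul_mem hP k),
        hle (Point.some x' y' h') (he ▸ G.nsmul_mem hP k)⟩⟩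
    have := lt_of_le_of_lt zero_le (hdeep _ y h hP)
    rw [h0, Rat.cast_zero, map_zero] at this
    exact lt_irrefl _ this

end Group

/-- Translation of a stable group to another model. -/
theorem exists_translate {b₁ b₂ b₄ r t : Qbar}
    (hW : (VariableChange.mk 1 r 0 t : VariableChange Qbar) • (crv a₁ a₂ a₄) = crv b₁ b₂ b₄)
    (hΔ : (crv a₁ a₂ a₄).Δ ≠ 0) (G : AddSubgroup (crv a₁ a₂ a₄).Point)
    (hpG : ∀ P ∈ G, p • P = 0) (hne : ∃ P ∈ G, P ≠ 0) :
    ∃ G' : AddSubgroup (crv b₁ b₂ b₄).Point, (∀ P ∈ G', p • P = 0) ∧ (∃ P ∈ G', P ≠ 0) ∧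
      (∀ (x y : Qbar) (h : (crv b₁ b₂ b₄).Nonsingular x y), Point.some x y h ∈ G' →
        ∃ h' : (crv a₁ a₂ a₄).Nonsingular (x + r) (y + t), Point.some (x + r) (y + t) h' ∈ G) ∧
      ∀ (τ : GalQ) (k : ℕ), τ b₁ = b₁ → τ b₂ = b₂ → τ b₄ = b₄ → τ r = r → τ t = t →
        ActsAs τ G k → ActsAs τ G' k := by
  set C : VariableChange Qbar := ⟨1, r, 0, t⟩ with hC
  have hX : ∀ x : Qbar, LR.cvX C x = x + r := fun x => by simp [LR.cvX, hC]
  have hY : ∀ x y : Qbar, LR.cvY C x y = y + t := fun x y => by simp [LR.cvY, hC]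
  obtain ⟨T, hT, hTs⟩ : ∃ T : (crv b₁ b₂ b₄).Point →+ (crv a₁ a₂ a₄).Point, Function.Injective T ∧
      ∀ (x y : Qbar) (h : (crv b₁ b₂ b₄).Nonsingular x y),
        ∃ h', T (Point.some x y h) = Point.some (x + r) (y + t) h' := by
    have key : ∀ V : WeierstrassCurve.Affine Qbar, C • (crv a₁ a₂ a₄) = V →
        ∃ T : V.Point →+ (crv a₁ a₂ a₄).Point, Function.Injective T ∧
          ∀ (x y : Qbar) (h : V.Nonsingular x y),
            ∃ h', T (Point.some x y h) = Point.some (x + r) (y + t) h' := by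
      rintro V rfl
      refine ⟨LR.cvPoint (crv a₁ a₂ a₄) C, LR.cvPoint_injective _ _, fun x y h => ?_⟩
      have h' := LR.cv_nonsingular (crv a₁ a₂ a₄) C h
      refine ⟨by rw [← hX x, ← hY x y]; exact h', ?_⟩
      show Point.some _ _ (LR.cv_nonsingular (crv a₁ a₂ a₄) C h) = _
      rw [Point.some.injEq]
      exact ⟨hX x, hY x y⟩
    exact key _ hW
  have hΔ' : (crv b₁ b₂ b₄).Δ ≠ 0 := by
    rw [← hW, variableChange_Δ]; simpa [hC] using hΔ
  refine ⟨G.comap T, fun P hP => hT (by rw [map_nsmul, map_zero]; exact hpG _ hP), ?_,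
    fun x y h hP => ?_, fun τ k hb₁ hb₂ hb₄ hr ht hk x y h hP => ?_⟩
  · obtain ⟨P, hP, hP0⟩ := hne
    cases P with
    | zero => exact absurd rfl hP0
    | @some x y h =>
      have hb : (crv b₁ b₂ b₄).Equation (x - r) (y - t) := by
        have := (LR.cv_equation_iff (crv a₁ a₂ a₄) C (x - r) (y - t)).1
          (by rw [hX, hY, sub_add_cancel, sub_add_cancel]; exact h.1)
        change (C • crv a₁ a₂ a₄).toAffine.Equation _ _ at this
        rw [hW] at this
        exact this
      have hns : (crv b₁ b₂ b₄).Nonsingular (x - r) (y - t) :=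
        (equation_iff_nonsingular_of_Δ_ne_zero hΔ').1 hb
      refine ⟨Point.some _ _ hns, ?_, Point.some_ne_zero _⟩
      obtain ⟨h', he⟩ := hTs _ _ hns
      show T (Point.some _ _ hns) ∈ G
      rw [he]
      simp only [sub_add_cancel]
      exact hP
  · obtain ⟨h', he⟩ := hTs x y h
    refine ⟨h', ?_⟩
    rw [← he]; exact hP
  · have hns : (crv b₁ b₂ b₄).Nonsingular (τ x) (τ y) := by
      refine (equation_iff_nonsingular_of_Δ_ne_zero hΔ').1 ?_
      have hmap : (crv b₁ b₂ b₄).map (τ : Qbar →+* Qbar) = crv b₁ b₂ b₄ := by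
        ext <;> simp [crv, WeierstrassCurve.map, hb₁, hb₂, hb₄]
      have := Equation.map (τ : Qbar →+* Qbar) h.1
      rw [hmap] at this
      exact this
    refine ⟨hns, hT ?_⟩
    obtain ⟨h₁, he₁⟩ := hTs _ _ hns
    obtain ⟨h₂, he₂⟩ := hTs x y h
    obtain ⟨h₃, he₃⟩ := hk _ _ h₂ (he₂ ▸ hP)
    rw [map_nsmul, he₁, he₂, ← he₃, Point.some.injEq]
    exact ⟨by rw [map_add, hr], by rw [map_add, ht]⟩

end Fermat.Agent.S13
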