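import Fermat.Agent.S13.Formulas
import Mathlib.RingTheory.Valuation.Basic
import Mathlib.GroupTheory.OrderOfElement
import Mathlib.Tactic.Ring

/-!
# Valuations of the coordinates of points on `y² + a₁xy = x³ + a₂x² + a₄x`

The reduction at a place: points with integral coordinates in good or nodal reduction, and points
reducing to the node.
-/

set_option autoImplicit false

namespace Fermat.Agent.S13

open WeierstrassCurve WeierstrassCurve.Affine

variable {F : Type*} [Field F] {Γ : Type*} [LinearOrderedCommGroupWithZero Γ] (v : Valuation F Γ)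
  {a₁ a₂ a₄ x y x' y' : F}

/-- The coefficients are integral at `v`. -/
structure IntCrv (a₁ a₂ a₄ : F) : Prop where
  a₁_le : v a₁ ≤ 1
  a₂_le : v a₂ ≤ 1
  a₄_le : v a₄ ≤ 1

/-- Good reduction of `crv` at `v`. -/
def GoodCrv (a₁ a₂ a₄ : F) : Prop := v a₄ = 1 ∧ v ((a₁ ^ 2 + 4 * a₂) ^ 2 - 64 * a₄) = 1

/-- Multiplicative reduction of `crv` at `v`, with node at the origin. -/
def NodeCrv (a₁ a₂ a₄ : F) : Prop := v a₄ < 1 ∧ v (a₁ ^ 2 + 4 * a₂) = 1

theorem val_natCast_le_one (n : ℕ) : v (n : F) ≤ 1 := by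
  induction n with
  | zero => simp
  | succ n ih => push_cast; exact v.map_add_le ih (by simp)

theorem val_ofNat_le_one (n : ℕ) [n.AtLeastTwo] : v (OfNat.ofNat n : F) ≤ 1 := by
  rw [← Nat.cast_ofNat]; exact val_natCast_le_one v _

/-- Integral abscissa forces an integral ordinate. -/
theorem crv_val_y_le (hI : IntCrv v a₁ a₂ a₄) (h : (crv a₁ a₂ a₄).Equation x y) (hx : v x ≤ 1) :
    v y ≤ 1 := by
  by_contra hy
  rw [not_le] at hy
  have h1 : v (a₁ * x) < v y := by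
    rw [map_mul]
    exact lt_of_le_of_lt (mul_le_one' hI.a₁_le hx) hy
  have h2 : v (y ^ 2 + a₁ * x * y) = v y * v y := by
    rw [show y ^ 2 + a₁ * x * y = (y + a₁ * x) * y by ring, map_mul, v.map_add_eq_of_lt_left h1]
  have h3 : v (x ^ 3 + a₂ * x ^ 2 + a₄ * x) ≤ 1 := by
    refine v.map_add_le (v.map_add_le ?_ ?_) ?_ <;> simp only [map_mul, map_pow]
    · exact pow_le_one' hx _
    · exact mul_le_one' hI.a₂_le (pow_le_one' hx _)
    · exact mul_le_one' hI.a₄_le hx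
  rw [← crv_equation h, h2] at h3
  exact absurd h3 (not_le.2 (one_lt_mul_of_lt_of_le' hy hy.le))

theorem gamma_mul_lt_one {a b : Γ} (ha : a ≤ 1) (hb : b < 1) : a * b < 1 :=
  lt_of_le_of_lt (mul_le_of_le_one_left' ha) hb

theorem gamma_mul_lt_one' {a b : Γ} (ha : a < 1) (hb : b ≤ 1) : a * b < 1 :=
  lt_of_le_of_lt (mul_le_of_le_one_right' hb) ha

variable [DecidableEq F]

/-- Doubling a point reducing to the node at depth at least `v a₄` leaves the node. -/
theorem crv_double_deep (hN : NodeCrv v a₁ a₂ a₄)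
    (h : (crv a₁ a₂ a₄).Nonsingular x y) (h2 : (2 : ℕ) • Point.some x y h ≠ 0)
    (hx : v x ≤ v a₄) :
    ∃ (x₂ y₂ : F) (h₂ : (crv a₁ a₂ a₄).Nonsingular x₂ y₂),
      (2 : ℕ) • Point.some x y h = Point.some x₂ y₂ h₂ ∧ 1 ≤ v x₂ := by
  obtain ⟨x₂, y₂, h₂, he, hd, -⟩ := crv_double h h2
  refine ⟨x₂, y₂, h₂, he, ?_⟩
  have hw := crv_two_nsmul_ne_zero h h2
  have hx1 : v x < 1 := lt_of_le_of_lt hx hN.1
  have ha : v a₄ ≠ 0 := by
    intro ha
    have ha' := (map_eq_zero v).1 ha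
    have hx0 : x = 0 := (map_eq_zero v).1 (le_antisymm (hx.trans ha.le) zero_le)
    have := crv_sq_two_mul_add h.1
    rw [hx0] at this hw
    exact hw (pow_eq_zero_iff (n := 2) two_ne_zero |>.1 (by linear_combination this))
  have hnum : v ((x ^ 2 - a₄) ^ 2) = v a₄ ^ 2 := by
    rw [map_pow, v.map_sub_eq_of_lt_right]
    rw [map_pow, sq]
    exact lt_of_le_of_lt (mul_le_mul' hx le_rfl) (mul_lt_of_lt_one_right (zero_lt_iff.2 ha) hx1)
  have hden : v ((2 * y + a₁ * x) ^ 2) ≤ v a₄ ^ 2 := by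
    rw [crv_sq_two_mul_add h.1]
    refine v.map_add_le (v.map_add_le ?_ ?_) ?_ <;> simp only [map_mul, map_pow]
    · calc v 4 * v x ^ 3 ≤ 1 * v x ^ 3 := mul_le_mul' (val_ofNat_le_one v 4) le_rfl
        _ = v x ^ 2 * v x := by rw [one_mul, pow_succ]
        _ ≤ v x ^ 2 * 1 := mul_le_mul' le_rfl hx1.le
        _ ≤ v a₄ ^ 2 := by rw [mul_one]; exact pow_le_pow_left' hx 2
    · rw [hN.2, one_mul]; exact pow_le_pow_left' hx 2
    · calc v 4 * v a₄ * v x ≤ 1 * v a₄ * v a₄ :=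
            mul_le_mul' (mul_le_mul' (val_ofNat_le_one v 4) le_rfl) hx
        _ = v a₄ ^ 2 := by rw [one_mul, sq]
  have hd' : v x₂ * v ((2 * y + a₁ * x) ^ 2) = v a₄ ^ 2 := by
    rw [← map_mul, hd, hnum]
  by_contra hlt
  rw [not_le] at hlt
  have : v x₂ * v ((2 * y + a₁ * x) ^ 2) < 1 * v a₄ ^ 2 :=
    mul_lt_mul_of_lt_of_le_of_nonneg_of_pos hlt hden zero_le (zero_lt_iff.2 (pow_ne_zero 2 ha))
  rw [hd', one_mul] at this
  exact lt_irrefl _ this

/-- An integral smooth point reducing to a point of order two doubles into the kernel. -/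
theorem crv_double_smooth (hI : IntCrv v a₁ a₂ a₄)
    (h : (crv a₁ a₂ a₄).Nonsingular x y) (h2 : (2 : ℕ) • Point.some x y h ≠ 0)
    (hx : v x ≤ 1) (hred : GoodCrv v a₁ a₂ a₄ ∨ (NodeCrv v a₁ a₂ a₄ ∧ v x = 1))
    (hw : v (2 * y + a₁ * x) < 1) :
    ∃ (x₂ y₂ : F) (h₂ : (crv a₁ a₂ a₄).Nonsingular x₂ y₂),
      (2 : ℕ) • Point.some x y h = Point.some x₂ y₂ h₂ ∧ 1 < v x₂ := by
  obtain ⟨x₂, y₂, h₂, he, hd, -⟩ := crv_double h h2
  refine ⟨x₂, y₂, h₂, he, ?_⟩
  have hnum : v (x ^ 2 - a₄) = 1 := by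
    rcases hred with ⟨ha, hD⟩ | ⟨⟨ha, -⟩, hx1⟩
    · have hle : v (x ^ 2 - a₄) ≤ 1 :=
        v.map_sub_le (by rw [map_pow]; exact pow_le_one' hx _) hI.a₄_le
      refine le_antisymm hle (le_of_not_gt fun hlt => ?_)
      have hx2 : v (x ^ 2) = 1 := by
        rw [show x ^ 2 = a₄ + (x ^ 2 - a₄) by ring,
          v.map_add_eq_of_lt_left (by rw [ha]; exact hlt), ha]
      have hx1 : v x = 1 := (pow_eq_one_iff_of_nonneg zero_le two_ne_zero).1 (by rwa [map_pow] at hx2)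
      have hq : v (x * (4 * x ^ 2 + (a₁ ^ 2 + 4 * a₂) * x + 4 * a₄)) < 1 := by
        rw [show x * (4 * x ^ 2 + (a₁ ^ 2 + 4 * a₂) * x + 4 * a₄) = (2 * y + a₁ * x) ^ 2 by
          rw [crv_sq_two_mul_add h.1]; ring, map_pow]
        exact pow_lt_one₀ zero_le hw two_ne_zero
      rw [map_mul, hx1, one_mul] at hq
      have hs : v ((a₁ ^ 2 + 4 * a₂) + 8 * x) < 1 := by
        have : v (x * ((a₁ ^ 2 + 4 * a₂) + 8 * x)) < 1 := by
          rw [show x * ((a₁ ^ 2 + 4 * a₂) + 8 * x) =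
            (4 * x ^ 2 + (a₁ ^ 2 + 4 * a₂) * x + 4 * a₄) + 4 * (x ^ 2 - a₄) by ring]
          refine v.map_add_lt hq ?_
          rw [map_mul]
          exact gamma_mul_lt_one (val_ofNat_le_one v 4) hlt
        rwa [map_mul, hx1, one_mul] at this
      have : v ((a₁ ^ 2 + 4 * a₂) ^ 2 - 64 * a₄) < 1 := by
        rw [show (a₁ ^ 2 + 4 * a₂) ^ 2 - 64 * a₄ = ((a₁ ^ 2 + 4 * a₂) + 8 * x) *
          ((a₁ ^ 2 + 4 * a₂) - 8 * x) + 64 * (x ^ 2 - a₄) by ring]
        refine v.map_add_lt ?_ ?_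
        · rw [map_mul]
          refine gamma_mul_lt_one' hs (v.map_sub_le (v.map_add_le ?_ ?_) ?_) <;>
            simp only [map_mul, map_pow]
          · exact pow_le_one' hI.a₁_le _
          · exact mul_le_one' (val_ofNat_le_one v 4) hI.a₂_le
          · exact mul_le_one' (val_ofNat_le_one v 8) hx
        · rw [map_mul]
          exact gamma_mul_lt_one (val_ofNat_le_one v 64) hlt
      exact this.ne hD
    · rw [v.map_sub_eq_of_lt_left (by rw [map_pow, hx1, one_pow]; exact ha), map_pow, hx1, one_pow]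
  have hd' : v x₂ * v (2 * y + a₁ * x) ^ 2 = 1 := by
    rw [← map_pow, ← map_mul, hd, map_pow, hnum, one_pow]
  by_contra hle
  rw [not_lt] at hle
  have : v x₂ * v (2 * y + a₁ * x) ^ 2 < 1 :=
    gamma_mul_lt_one hle (pow_lt_one₀ zero_le hw two_ne_zero)
  exact this.ne hd'

/-- Two points with the same smooth reduction differ by a point of the kernel. -/
theorem crv_smooth_sub (hI : IntCrv v a₁ a₂ a₄)
    (h : (crv a₁ a₂ a₄).Nonsingular x y) (h' : (crv a₁ a₂ a₄).Nonsingular x' y')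
    (hx : v x ≤ 1) (hw : v (2 * y + a₁ * x) = 1) (hdx : v (x' - x) < 1) (hdy : v (y' - y) < 1) :
    (x' = x ∧ y' = y) ∨ ∃ (x₃ y₃ : F) (h₃ : (crv a₁ a₂ a₄).Nonsingular x₃ y₃),
      Point.some x' y' h' - Point.some x y h = Point.some x₃ y₃ h₃ ∧ 1 < v x₃ := by
  have hnum : v (y' + y + a₁ * x) = 1 := by
    rw [show y' + y + a₁ * x = (2 * y + a₁ * x) + (y' - y) by ring,
      v.map_add_eq_of_lt_left (by rw [hw]; exact hdy), hw]
  by_cases hne : x' = x
  · subst hne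
    rcases Y_eq_of_X_eq h'.1 h.1 rfl with hy | hy
    · exact Or.inl ⟨rfl, hy⟩
    · rw [crv_negY] at hy
      rw [show y' + y + a₁ * x' = 0 by rw [hy]; ring, map_zero] at hnum
      exact absurd hnum zero_ne_one
  · obtain ⟨x₃, y₃, h₃, he, hx₃, -⟩ := crv_sub_eq h' h hne
    refine Or.inr ⟨x₃, y₃, h₃, he, ?_⟩
    have hd : 0 < v (x' - x) := zero_lt_iff.2 (v.ne_zero_iff.2 (sub_ne_zero.2 hne))
    have hl : 1 < v ((y' + y + a₁ * x) / (x' - x)) := by
      rw [map_div₀, hnum, one_div]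
      exact (one_lt_inv₀ hd).2 hdx
    have hx' : v x' ≤ 1 := by
      rw [show x' = x + (x' - x) by ring]; exact v.map_add_le hx hdx.le
    generalize (y' + y + a₁ * x) / (x' - x) = l at hl hx₃
    have h1 : v (a₁ * l) < v (l ^ 2) := by
      rw [map_mul, map_pow, sq]
      exact lt_of_le_of_lt (mul_le_mul' hI.a₁_le le_rfl)
        (by rw [one_mul]; exact lt_mul_of_one_lt_right (zero_lt_one.trans hl) hl)
    have h2 : 1 < v (l ^ 2) := by
      rw [map_pow]; exact one_lt_pow₀ hl two_ne_zero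
    have h3 : v (a₂ + x' + x) ≤ 1 := v.map_add_le (v.map_add_le hI.a₂_le hx') hx
    rw [hx₃, show l ^ 2 + a₁ * l - a₂ - x' - x = (l ^ 2 + a₁ * l) - (a₂ + x' + x) by ring]
    have h4 : v (l ^ 2 + a₁ * l) = v (l ^ 2) := v.map_add_eq_of_lt_left h1
    rw [v.map_sub_eq_of_lt_left (by rw [h4]; exact lt_of_le_of_lt h3 h2), h4]
    exact h2

/-- Two points in the same component off the identity component differ by a point of it. -/
theorem crv_node_sub (hN : NodeCrv v a₁ a₂ a₄)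
    (h : (crv a₁ a₂ a₄).Nonsingular x y) (h' : (crv a₁ a₂ a₄).Nonsingular x' y')
    (hx0 : x ≠ 0) (hx : v x < 1) (hax' : v (a₄ / x) < 1)
    (hvx : v x' = v x) (hds : v (y' / x' - y / x) < 1) :
    (x' = x ∧ y' = y) ∨ ∃ (x₃ y₃ : F) (h₃ : (crv a₁ a₂ a₄).Nonsingular x₃ y₃),
      Point.some x' y' h' - Point.some x y h = Point.some x₃ y₃ h₃ ∧ 1 ≤ v x₃ := by
  have hx0' : x' ≠ 0 := v.ne_zero_iff.1 (hvx ▸ v.ne_zero_iff.2 hx0)
  have hs : v (2 * (y / x) + a₁) = 1 := by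
    have hsq : (2 * (y / x) + a₁) ^ 2 = (a₁ ^ 2 + 4 * a₂) + 4 * (x + a₄ / x) := by
      field_simp
      linear_combination (4 : F) * crv_equation h.1
    have h4 : v (4 * (x + a₄ / x)) < 1 := by
      rw [map_mul]
      exact gamma_mul_lt_one (val_ofNat_le_one v 4) (v.map_add_lt hx hax')
    refine (pow_eq_one_iff_of_nonneg zero_le two_ne_zero).1 ?_
    rw [← map_pow, hsq, v.map_add_eq_of_lt_left (by rw [hN.2]; exact h4), hN.2]
  have hs' : v (y' / x' + y / x + a₁) = 1 := by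
    rw [show y' / x' + y / x + a₁ = (2 * (y / x) + a₁) + (y' / x' - y / x) by ring,
      v.map_add_eq_of_lt_left (by rw [hs]; exact hds), hs]
  by_cases hne : x' = x
  · subst hne
    rcases Y_eq_of_X_eq h'.1 h.1 rfl with hy | hy
    · exact Or.inl ⟨rfl, hy⟩
    · rw [crv_negY] at hy
      rw [show y' / x' + y / x' + a₁ = 0 by rw [hy]; field_simp; ring, map_zero] at hs'
      exact absurd hs' zero_ne_one
  · obtain ⟨x₃, y₃, h₃, he, -, hx₃⟩ := crv_sub_eq h' h hne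
    refine Or.inr ⟨x₃, y₃, h₃, he, ?_⟩
    have hm : x₃ * (x' - x) ^ 2 = (x' * x) * (y' / x' + y / x + a₁) ^ 2 := by
      refine mul_right_cancel₀ (mul_ne_zero hx0' hx0) ?_
      rw [hx₃]
      field_simp
      ring
    have hd : v (x' - x) ≤ v x := v.map_sub_le hvx.le le_rfl
    have hmv : v x₃ * v (x' - x) ^ 2 = v x ^ 2 := by
      rw [← map_pow, ← map_mul, hm, map_mul, map_mul, map_pow, hs', hvx, one_pow, mul_one, sq]
    by_contra hlt
    rw [not_le] at hlt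
    have : v x₃ * v (x' - x) ^ 2 < 1 * v x ^ 2 :=
      mul_lt_mul_of_lt_of_le_of_nonneg_of_pos hlt (pow_le_pow_left' hd 2) zero_le
        (zero_lt_iff.2 (pow_ne_zero 2 (v.ne_zero_iff.2 hx0)))
    rw [hmv, one_mul] at this
    exact lt_irrefl _ this

/-- Doubling moves kernel points strictly outwards in residue characteristic two. -/
theorem crv_double_kernel_two (hI : IntCrv v a₁ a₂ a₄) (hv2 : v (2 : F) < 1)
    (h : (crv a₁ a₂ a₄).Nonsingular x y) (h2 : (2 : ℕ) • Point.some x y h ≠ 0) (hx : 1 < v x) :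
    ∃ (x₂ y₂ : F) (h₂ : (crv a₁ a₂ a₄).Nonsingular x₂ y₂),
      (2 : ℕ) • Point.some x y h = Point.some x₂ y₂ h₂ ∧ v x < v x₂ := by
  obtain ⟨x₂, y₂, h₂, he, hd, -⟩ := crv_double h h2
  refine ⟨x₂, y₂, h₂, he, ?_⟩
  have hx0 : 0 < v x := zero_lt_one.trans hx
  have hX2 : v x ^ 2 < v x ^ 3 := pow_lt_pow_right₀ hx (by norm_num)
  have hD : v (a₁ ^ 2 + 4 * a₂) ≤ 1 := by
    refine v.map_add_le ?_ ?_ <;> simp only [map_mul, map_pow]
    · exact pow_le_one' hI.a₁_le _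
    · exact mul_le_one' (val_ofNat_le_one v 4) hI.a₂_le
  have hden : v ((2 * y + a₁ * x) ^ 2) < v x ^ 3 := by
    rw [crv_sq_two_mul_add h.1]
    refine v.map_add_lt (v.map_add_lt ?_ ?_) ?_ <;> simp only [map_mul, map_pow]
    · refine mul_lt_of_lt_one_left (pow_pos hx0 _) ?_
      rw [show (4 : F) = 2 * 2 by norm_num, map_mul]
      exact gamma_mul_lt_one' hv2 hv2.le
    · exact lt_of_le_of_lt (mul_le_of_le_one_left' hD) hX2
    · refine lt_of_le_of_lt ?_ hX2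
      calc v 4 * v a₄ * v x ≤ 1 * v x :=
            mul_le_mul' (mul_le_one' (val_ofNat_le_one v 4) hI.a₄_le) le_rfl
        _ ≤ v x ^ 2 := by rw [sq]; exact mul_le_mul' hx.le le_rfl
  have hnum : v ((x ^ 2 - a₄) ^ 2) = v x ^ 4 := by
    rw [map_pow, v.map_sub_eq_of_lt_left, map_pow, ← pow_mul]
    rw [map_pow]
    exact lt_of_le_of_lt hI.a₄_le (one_lt_pow₀ hx two_ne_zero)
  by_contra hle
  rw [not_lt] at hle
  have : v x₂ * v ((2 * y + a₁ * x) ^ 2) < v x * v x ^ 3 :=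
    mul_lt_mul' hle hden zero_le hx0
  rw [← map_mul, hd, hnum, ← pow_succ'] at this
  exact lt_irrefl _ this

/-- If a group of odd prime order misses the kernel of reduction, an inertia element fixes one of
its nonzero points. -/
theorem exists_fixed_of_forall_le_one (hI : IntCrv v a₁ a₂ a₄)
    (hred : GoodCrv v a₁ a₂ a₄ ∨ NodeCrv v a₁ a₂ a₄)
    (σ : F →+* F) (hσv : ∀ z, v (σ z) = v z) (hσ : ∀ z, v z ≤ 1 → v (σ z - z) < 1)
    (G : AddSubgroup (crv a₁ a₂ a₄).Point) (h2 : ∀ P ∈ G, P ≠ 0 → (2 : ℕ) • P ≠ 0)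
    (hact : ∀ (x y : F) (h : (crv a₁ a₂ a₄).Nonsingular x y), Point.some x y h ∈ G →
      ∃ h' : (crv a₁ a₂ a₄).Nonsingular (σ x) (σ y), Point.some (σ x) (σ y) h' ∈ G)
    (hno : ∀ (x y : F) (h : (crv a₁ a₂ a₄).Nonsingular x y), Point.some x y h ∈ G → v x ≤ 1)
    (hne : ∃ P ∈ G, P ≠ 0) :
    ∃ (x y : F) (h : (crv a₁ a₂ a₄).Nonsingular x y),
      Point.some x y h ∈ G ∧ σ x = x ∧ σ y = y := by
  by_cases hs : ∃ (x y : F) (h : (crv a₁ a₂ a₄).Nonsingular x y), Point.some x y h ∈ G ∧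
      (GoodCrv v a₁ a₂ a₄ ∨ v x = 1)
  · obtain ⟨x, y, h, hG, hcase⟩ := hs
    have hx := hno x y h hG
    have hP2 := h2 _ hG (Point.some_ne_zero h)
    have hy := crv_val_y_le v hI h.1 hx
    have hw1 : v (2 * y + a₁ * x) ≤ 1 := by
      refine v.map_add_le ?_ ?_ <;> rw [map_mul]
      · exact mul_le_one' (val_ofNat_le_one v 2) hy
      · exact mul_le_one' hI.a₁_le hx
    have hw : v (2 * y + a₁ * x) = 1 := by
      refine le_antisymm hw1 (le_of_not_gt fun hlt => ?_)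
      have hred' : GoodCrv v a₁ a₂ a₄ ∨ (NodeCrv v a₁ a₂ a₄ ∧ v x = 1) := by
        rcases hcase with hg | hx1
        · exact Or.inl hg
        · exact hred.imp_right fun hn => ⟨hn, hx1⟩
      obtain ⟨x₂, y₂, h₂, he, hx₂⟩ := crv_double_smooth v hI h hP2 hx hred' hlt
      exact absurd (hno x₂ y₂ h₂ (he ▸ G.nsmul_mem hG 2)) (not_le.2 hx₂)
    obtain ⟨h', hG'⟩ := hact x y h hG
    rcases crv_smooth_sub v hI h h' hx hw (hσ x hx) (hσ y hy) with hfix | ⟨x₃, y₃, h₃, he, hx₃⟩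
    · exact ⟨x, y, h, hG, hfix⟩
    · exact absurd (hno x₃ y₃ h₃ (he ▸ G.sub_mem hG' hG)) (not_le.2 hx₃)
  · obtain ⟨P, hG, hP0⟩ := hne
    cases P with
    | zero => exact absurd rfl hP0
    | @some x y h =>
      have hgood : ¬ GoodCrv v a₁ a₂ a₄ := fun hg => hs ⟨x, y, h, hG, Or.inl hg⟩
      have hN := hred.resolve_left hgood
      have hlt : ∀ (a b : F) (hab : (crv a₁ a₂ a₄).Nonsingular a b),
          Point.some a b hab ∈ G → v a < 1 := fun a b hab hG =>
        lt_of_le_of_ne (hno a b hab hG) fun h1 => hs ⟨a, b, hab, hG, Or.inr h1⟩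
      have hax : v a₄ < v x := by
        by_contra hle
        rw [not_lt] at hle
        obtain ⟨x₂, y₂, h₂, he, hx₂⟩ := crv_double_deep v hN h (h2 _ hG hP0) hle
        exact absurd (hlt x₂ y₂ h₂ (he ▸ G.nsmul_mem hG 2)) (not_lt.2 hx₂)
      have hx0 : x ≠ 0 := v.ne_zero_iff.1 (ne_of_gt (lt_of_le_of_lt zero_le hax))
      have hx1 := hlt x y h hG
      have hax' : v (a₄ / x) < 1 := by
        rw [map_div₀, div_lt_one₀ (zero_lt_iff.2 (v.ne_zero_iff.2 hx0))]
        exact hax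
      have hs1 : v (y / x) ≤ 1 := by
        by_contra hgt
        rw [not_le] at hgt
        have heq : (y / x + a₁) * (y / x) = a₂ + (x + a₄ / x) := by
          field_simp
          linear_combination crv_equation h.1
        have h1 : v (y / x + a₁) = v (y / x) :=
          v.map_add_eq_of_lt_left (lt_of_le_of_lt hI.a₁_le hgt)
        have h3 : v (a₂ + (x + a₄ / x)) ≤ 1 :=
          v.map_add_le hI.a₂_le (v.map_add_le hx1.le hax'.le)
        rw [← heq, map_mul, h1] at h3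
        exact absurd h3 (not_le.2 (one_lt_mul_of_lt_of_le' hgt hgt.le))
      obtain ⟨h', hG'⟩ := hact x y h hG
      have hds : v (σ y / σ x - y / x) < 1 := by rw [← map_div₀]; exact hσ _ hs1
      rcases crv_node_sub v hN h h' hx0 hx1 hax' (hσv x) hds with
        hfix | ⟨x₃, y₃, h₃, he, hx₃⟩
      · exact ⟨x, y, h, hG, hfix⟩
      · exact absurd (hlt x₃ y₃ h₃ (he ▸ G.sub_mem hG' hG)) (not_lt.2 hx₃)

end Fermat.Agent.S13
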